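import Fermat.Agent.TwoAdic.RingClass.TwoQuot
import Mathlib.RingTheory.RootsOfUnity.AlgebraicallyClosed
import Mathlib.RingTheory.RootsOfUnity.EnoughRootsOfUnity
import Mathlib.GroupTheory.FiniteAbelian.Duality

/-!
# The 2-power character `μ~` of the ring class group

`IsLocalChar q ν`: `ν` is a character of `(𝓞 K / q)ˣ` trivial on the elements killed by `q - 1`
(that is, on `F_qˣ`) whose image has order 4. Any family of such characters extends to a character
of 2-power order of the ring class group.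
-/

set_option autoImplicit false

noncomputable section

open NumberField

namespace Fermat.Agent.TwoAdic.RingClass

variable {K : Type*} [Field K] [NumberField K] {R : Type*} [Field R]

/-- A character of `(𝓞 K / q)ˣ` trivial on `F_qˣ`, of order 4. -/
structure IsLocalChar {q : ℕ} (ν : ResUnits K q →* Rˣ) : Prop where
  eq_one : ∀ x, x ^ (q - 1) = 1 → ν x = 1
  pow_four : ∀ x, ν x ^ 4 = 1
  exists_orderOf : ∃ x, orderOf (ν x) = 4

omit [NumberField K] in
theorem IsLocalChar.map_pow_q {q : ℕ} {ν : ResUnits K q →* Rˣ} (hν : IsLocalChar ν)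
    (hq : 4 ∣ q + 1) (x : ResUnits K q) : ν (x ^ q) = (ν x)⁻¹ := by
  obtain ⟨c, hc⟩ := hq
  refine eq_inv_of_mul_eq_one_left ?_
  rw [← map_mul, ← pow_succ, map_pow, hc, pow_mul, hν.pow_four, one_pow]

omit [NumberField K] in
/-- Nontrivial on the elements of norm one. -/
theorem IsLocalChar.exists_ne_one {q : ℕ} {ν : ResUnits K q →* Rˣ} (hν : IsLocalChar ν)
    (hq : 4 ∣ q + 1) (hcard : Nat.card (ResUnits K q) = q ^ 2 - 1) :
    ∃ x : ResUnits K q, x ^ (q + 1) = 1 ∧ ν x ≠ 1 := by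
  obtain ⟨y, hy⟩ := hν.exists_orderOf
  obtain ⟨c, hc⟩ := hq
  refine ⟨y ^ (q - 1), ?_, ?_⟩
  · rw [← pow_mul, mul_comm, ← Nat.sq_sub_sq, one_pow, ← hcard, pow_card_eq_one']
  · rw [map_pow, ← pow_mod_orderOf, hy, show (q - 1) % 4 = 2 by omega]
    intro h
    have := orderOf_dvd_of_pow_eq_one h
    rw [hy] at this
    norm_num at this

variable {f : ℕ} {Q : Finset ℕ} [IsAlgClosed R] [CharZero R]

theorem IsAuxSet.exists_localChar (h : IsAuxSet K f Q) {q : ℕ} (hq : q ∈ Q) :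
    ∃ ν : ResUnits K q →* Rˣ, IsLocalChar ν := by
  have : NeZero q := ⟨(h.prime q hq).ne_zero⟩
  have := h.isCyclic_resUnits hq
  obtain ⟨g, hg⟩ := IsCyclic.exists_generator (α := ResUnits K q)
  obtain ⟨z, hord⟩ : ∃ z : Rˣ, orderOf z = 4 := by
    obtain ⟨ζ, hζ⟩ := HasEnoughRootsOfUnity.exists_primitiveRoot R 4
    exact ⟨(hζ.isUnit (by norm_num)).unit, by rw [← orderOf_units, IsUnit.unit_spec, ← hζ.eq_orderOf]⟩
  have hz : z ^ 4 = 1 := hord ▸ pow_orderOf_eq_one z
  have hdvd : orderOf z ∣ orderOf g := by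
    rw [hord, orderOf_eq_card_of_forall_mem_zpowers hg, h.natCard_resUnits hq]
    exact (h.four_dvd q hq).trans ⟨q - 1, by rw [← Nat.sq_sub_sq, one_pow]⟩
  refine ⟨monoidHomOfForallMemZpowers hg hdvd, ⟨?_, ?_, g, ?_⟩⟩
  · intro x hx
    obtain ⟨y, rfl⟩ := h.exists_pow_four_eq hq hx
    obtain ⟨k, rfl⟩ := hg y
    rw [map_pow, map_zpow, monoidHomOfForallMemZpowers_apply_gen, ← zpow_natCast, ← zpow_mul,
      mul_comm, zpow_mul, zpow_natCast, hz, one_zpow]
  · intro x
    obtain ⟨k, rfl⟩ := hg x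
    rw [map_zpow, monoidHomOfForallMemZpowers_apply_gen, ← zpow_natCast, ← zpow_mul, mul_comm,
      zpow_mul, zpow_natCast, hz, one_zpow]
  · rw [monoidHomOfForallMemZpowers_apply_gen, hord]

/-- A character defined on the image of `r` extends. -/
theorem exists_extend_of_ker_le {A G : Type*} [CommGroup A] [CommGroup G] [Finite G] (r : A →* G)
    (ν : A →* Rˣ) (h : r.ker ≤ ν.ker) : ∃ μ : G →* Rˣ, ∀ a, μ (r a) = ν a := by
  have : NeZero (Monoid.exponent G) := ⟨Monoid.exponent_ne_zero_of_finite⟩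
  obtain ⟨μ, hμ⟩ := MonoidHom.domRestrict_surjective R r.range
    ((QuotientGroup.lift r.ker ν h).comp (QuotientGroup.quotientKerEquivRange r).symm.toMonoidHom)
  refine ⟨μ, fun a => ?_⟩
  have h1 : (QuotientGroup.quotientKerEquivRange r).symm ⟨r a, a, rfl⟩ = (a : A ⧸ r.ker) :=
    (MulEquiv.symm_apply_eq _).mpr rfl
  refine (DFunLike.congr_fun hμ ⟨r a, a, rfl⟩).trans ?_
  rw [MonoidHom.comp_apply, MulEquiv.coe_toMonoidHom, h1, QuotientGroup.lift_mk]

/-- **`μ~`**: local characters of order 4 extend to a character of 2-power order of the ring class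
group. -/
theorem IsAuxSet.exists_muTilde [NeZero f] (h : IsAuxSet K f Q)
    (hunits : ∀ u : (𝓞 K)ˣ, u = 1 ∨ u = -1) (ν : ∀ q : Q, ResUnits K q →* Rˣ)
    (hν : ∀ q, IsLocalChar (ν q)) :
    ∃ μ : RingClassGroup K f →* Rˣ,
      (∀ g, μ g ^ 2 ^ padicValNat 2 (Nat.card (RingClassGroup K f)) = 1) ∧
      ∀ u : ResUnits K f, μ (resHom u) = ∏ q : Q, ν q (resMap K (h.dvd q.2) u) := by
  let ν₀ : ResUnits K f →* Rˣ := ∏ q : Q, (ν q).comp (resMap K (h.dvd q.2))
  have hν₀ : ∀ u, ν₀ u = ∏ q : Q, ν q (resMap K (h.dvd q.2) u) := fun u => by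
    simp [ν₀]
  have hker : (resHom : ResUnits K f →* RingClassGroup K f).ker ≤ ν₀.ker := fun u hu => by
    rw [ker_resHom hunits] at hu
    rw [MonoidHom.mem_ker, hν₀]
    exact Finset.prod_eq_one fun q _ => (hν q).eq_one _ (h.resMap_pow_eq_one hu q.2)
  obtain ⟨μ₀, hμ₀⟩ := exists_extend_of_ker_le resHom ν₀ hker
  obtain ⟨m, hm, hN⟩ : ∃ m, ¬ 2 ∣ m ∧ Nat.card (RingClassGroup K f) =
      2 ^ padicValNat 2 (Nat.card (RingClassGroup K f)) * m := by
    have := exists_index_eq_two_pow_mul (⊥ : Subgroup (RingClassGroup K f))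
    rwa [Subgroup.index_bot] at this
  refine ⟨μ₀ ^ (m * m), fun g => ?_, fun u => ?_⟩
  · generalize padicValNat 2 (Nat.card (RingClassGroup K f)) = A at hN ⊢
    rw [MonoidHom.pow_apply, ← pow_mul,
      show m * m * 2 ^ A = Nat.card (RingClassGroup K f) * m by rw [hN]; ring, pow_mul, ← map_pow, pow_card_eq_one',
      map_one, one_pow]
  · have h1 : μ₀ (resHom u) = ν₀ u := hμ₀ u
    have h4 : ν₀ u ^ 4 = 1 := by
      rw [hν₀, ← Finset.prod_pow]
      exact Finset.prod_eq_one fun q _ => (hν q).pow_four _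
    rw [MonoidHom.pow_apply, h1, ← hν₀, ← Nat.div_add_mod (m * m) 4, pow_add, pow_mul, h4, one_pow,
      one_mul, show m * m % 4 = 1 by
        obtain ⟨j, rfl⟩ := Nat.odd_iff.mpr (Nat.two_dvd_ne_zero.mp hm)
        ring_nf; omega, pow_one]

end Fermat.Agent.TwoAdic.RingClass
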