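import Fermat.Agent.TwoAdic.RingClass.Quadratic
import Fermat.Agent.TwoAdic.Contracts.Defs
import Mathlib.NumberTheory.NumberField.Discriminant.Defs
import Mathlib.RingTheory.Trace.Basic
import Mathlib.Algebra.Squarefree.Basic
import Mathlib.NumberTheory.Padics.PadicVal.Basic

/-!
# The discriminant field of the switched curve

`ℚ(√Δ) = ℚ(√(-2m))` with `2m = ∏` bad primes: discriminant `-8m`, totally complex, units `±1`.
-/

set_option autoImplicit false

noncomputable section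

open NumberField

namespace Fermat.Agent.TwoAdic.RingClass

variable {K : Type*} [Field K] [NumberField K] {m : ℕ} {θ : K}

/-- A rational number whose square times a squarefree integer is an integer is an integer. -/
theorem exists_intCast_eq_of_squarefree_mul_sq {d : ℕ} (hd : Squarefree d) {t : ℚ} {N : ℤ}
    (h : (d : ℚ) * t ^ 2 = N) : ∃ z : ℤ, (z : ℚ) = t := by
  refine ⟨t.num, Rat.den_eq_one_iff t |>.mp ?_⟩
  have ht := Rat.num_div_den t
  have hden : (t.den : ℚ) ≠ 0 := Nat.cast_ne_zero.mpr t.den_nz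
  have h1 : (d : ℤ) * t.num ^ 2 = N * (t.den : ℤ) ^ 2 := by
    have h2 : (d : ℚ) * (t.num : ℚ) ^ 2 = N * (t.den : ℚ) ^ 2 := by
      rw [← ht] at h
      field_simp at h
      linear_combination h
    exact_mod_cast h2
  have h3 : ((t.den ^ 2 : ℕ) : ℤ) ∣ (d : ℤ) * t.num ^ 2 := ⟨N, by push_cast; rw [h1]; ring⟩
  have h4 : t.den ^ 2 ∣ d * t.num.natAbs ^ 2 := by
    have := Int.natAbs_dvd_natAbs.mpr h3
    rwa [Int.natAbs_natCast, Int.natAbs_mul, Int.natAbs_pow, Int.natAbs_natCast] at this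
  have h5 : t.den ^ 2 ∣ d := ((t.reduced.symm).pow 2 2).dvd_of_dvd_mul_right h4
  exact Nat.isUnit_iff.mp (hd t.den (by rwa [← sq]))

section Gen

variable (hθ : θ ^ 2 = -(2 * m : K)) (hm : m ≠ 0) (h2 : Module.finrank ℚ K = 2)
include hθ hm h2

theorem exists_coords (x : K) : ∃ a b : ℚ, x = a + b * θ := by
  have hli : LinearIndependent ℚ ![(1 : K), θ] :=
    (LinearIndependent.pair_iff' one_ne_zero).mpr fun a ha => by
      rw [← ha, Rat.smul_def, mul_one] at hθ
      have h' : a ^ 2 = -(2 * (m : ℚ)) := Rat.cast_injective (α := K) (by push_cast; exact hθ)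
      have : (0 : ℚ) < m := Nat.cast_pos.mpr (Nat.pos_of_ne_zero hm)
      nlinarith [sq_nonneg a]
  have hx : x ∈ Submodule.span ℚ (Set.range ![(1 : K), θ]) :=
    (hli.span_eq_top_of_card_eq_finrank (by simp [h2])) ▸ Submodule.mem_top
  rw [Matrix.range_cons_cons_empty, Submodule.mem_span_pair] at hx
  obtain ⟨a, b, rfl⟩ := hx
  exact ⟨a, b, by simp [Rat.smul_def]⟩

theorem exists_conj_neg : ∃ σ : K ≃ₐ[ℚ] K, σ ≠ 1 ∧ σ θ = -θ := by
  have := isGalois_of_finrank_eq_two h2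
  obtain ⟨σ, hσ⟩ : ∃ σ : K ≃ₐ[ℚ] K, σ ≠ 1 := by
    have : Nontrivial (K ≃ₐ[ℚ] K) := by
      rw [← Finite.one_lt_card_iff_nontrivial, IsGalois.card_aut_eq_finrank, h2]
      norm_num
    exact exists_ne 1
  refine ⟨σ, hσ, ?_⟩
  have h1 : σ θ ^ 2 = θ ^ 2 := by rw [← map_pow, hθ]; simp [map_ofNat]
  refine (sq_eq_sq_iff_eq_or_eq_neg.1 h1).resolve_left fun h => hσ (AlgEquiv.ext fun x => ?_)
  obtain ⟨a, b, rfl⟩ := exists_coords hθ hm h2 x
  simp [h]

theorem exists_intCast_coords (hodd : Odd m) (hsq : Squarefree m) (x : 𝓞 K) :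
    ∃ A B : ℤ, (x : K) = A + B * θ := by
  obtain ⟨σ, -, hσθ⟩ := exists_conj_neg hθ hm h2
  obtain ⟨a, b, hab⟩ := exists_coords hθ hm h2 (x : K)
  have hσx : IsIntegral ℤ (σ (x : K)) := x.2.map (σ.toAlgHom.restrictScalars ℤ)
  have hσ' : σ (x : K) = a - b * θ := by rw [hab]; simp [hσθ]; ring
  have key : ∀ r : ℚ, IsIntegral ℤ (r : K) → ∃ z : ℤ, (z : ℚ) = r := fun r hr => by
    rw [← eq_ratCast (algebraMap ℚ K) r, isIntegral_algebraMap_iff (algebraMap ℚ K).injective] at hr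
    obtain ⟨z, hz⟩ := IsIntegrallyClosed.isIntegral_iff.mp hr
    exact ⟨z, by simpa using hz⟩
  obtain ⟨A, hA⟩ := key (2 * a) (by
    rw [show ((2 * a : ℚ) : K) = (x : K) + σ (x : K) by rw [hσ', hab]; push_cast; ring]
    exact x.2.add hσx)
  obtain ⟨N, hN⟩ := key (a ^ 2 + 2 * m * b ^ 2) (by
    rw [show ((a ^ 2 + 2 * m * b ^ 2 : ℚ) : K) = (x : K) * σ (x : K) by
      rw [hσ', hab]; push_cast; linear_combination ((b : K) ^ 2) * hθ]
    exact x.2.mul hσx)
  have hsq2 : Squarefree (2 * m) :=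
    (Nat.squarefree_mul (Nat.coprime_two_left.mpr hodd)).mpr ⟨Nat.prime_two.squarefree, hsq⟩
  obtain ⟨B, hB⟩ := exists_intCast_eq_of_squarefree_mul_sq hsq2 (t := 2 * b) (N := 4 * N - A ^ 2) (by
    push_cast; rw [hA, hN]; ring)
  have heq : A ^ 2 + 2 * (m : ℤ) * B ^ 2 = 4 * N := by
    have : (A : ℚ) ^ 2 + 2 * (m : ℚ) * (B : ℚ) ^ 2 = 4 * (N : ℚ) := by rw [hA, hB, hN]; ring
    exact_mod_cast this
  have hAe : Even A := by
    have : Even (A ^ 2) := ⟨2 * N - (m : ℤ) * B ^ 2, by linear_combination heq⟩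
    exact (Int.even_pow.mp this).1
  obtain ⟨A', hA'⟩ := hAe
  have hBe : Even B := by
    have h' : Even ((m : ℤ) * B ^ 2) := ⟨N - A' ^ 2, by subst hA'; linarith⟩
    rcases Int.even_mul.mp h' with h | h
    · exact absurd ((Int.even_coe_nat m).mp h) (Nat.not_even_iff_odd.mpr hodd)
    · exact (Int.even_pow.mp h).1
  obtain ⟨B', hB'⟩ := hBe
  refine ⟨A', B', ?_⟩
  have ha' : a = (A' : ℚ) := by
    have : ((A' + A' : ℤ) : ℚ) = 2 * a := hA' ▸ hA
    push_cast at this; linarith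
  have hb' : b = (B' : ℚ) := by
    have : ((B' + B' : ℤ) : ℚ) = 2 * b := hB' ▸ hB
    push_cast at this; linarith
  rw [hab, ha', hb', Rat.cast_intCast, Rat.cast_intCast]

/-- The discriminant. -/
theorem discr_eq (hodd : Odd m) (hsq : Squarefree m) : NumberField.discr K = -(8 * (m : ℤ)) := by
  have := isGalois_of_finrank_eq_two h2
  classical
  obtain ⟨σ, hσ, hσθ⟩ := exists_conj_neg hθ hm h2
  have hint : IsIntegral ℤ θ := IsIntegral.of_pow two_pos (by
    rw [hθ, show -(2 * m : K) = algebraMap ℤ K (-(2 * m)) by simp]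
    exact isIntegral_algebraMap)
  obtain ⟨θO, hθO⟩ : ∃ y : 𝓞 K, algebraMap (𝓞 K) K y = θ := ⟨⟨θ, hint⟩, rfl⟩
  have hθ0 : θ ≠ 0 := fun h => by
    rw [h] at hθ
    have : ((2 * m : ℕ) : K) = 0 := by push_cast; linear_combination hθ
    exact hm (by simpa using Nat.cast_eq_zero.mp this)
  have hli : LinearIndependent ℤ ![(1 : 𝓞 K), θO] := by
    rw [LinearIndependent.pair_iff]
    intro A B hAB
    have h1 : (A : K) + (B : K) * θ = 0 := by
      have := congrArg (fun z : 𝓞 K => (z : K)) hAB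
      simp only [map_add, map_zsmul, map_zero, map_one] at this
      simpa [zsmul_eq_mul, hθO] using this
    have h2' : (A : K) - (B : K) * θ = 0 := by
      have := congrArg σ h1
      simpa [hσθ, sub_eq_add_neg] using this
    have hA0 : (A : K) = 0 := by linear_combination (h1 + h2') / 2
    refine ⟨Int.cast_eq_zero.mp hA0, Int.cast_eq_zero.mp (?_ : (B : K) = 0)⟩
    exact (mul_eq_zero.mp (by linear_combination h1 - hA0)).resolve_right hθ0
  let b : Module.Basis (Fin 2) ℤ (𝓞 K) := Module.Basis.mk hli (by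
    intro x _
    rw [Matrix.range_cons_cons_empty, Submodule.mem_span_pair]
    obtain ⟨A, B, h⟩ := exists_intCast_coords hθ hm h2 hodd hsq x
    exact ⟨A, B, RingOfIntegers.ext (by
      simp only [RingOfIntegers.coe_eq_algebraMap, map_add, map_zsmul, map_one] at h ⊢
      simp [zsmul_eq_mul, hθO, h])⟩)
  have huniv : (Finset.univ : Finset (K ≃ₐ[ℚ] K)) = {1, σ} := by
    refine (Finset.eq_univ_of_card _ ?_).symm
    rw [Finset.card_pair hσ.symm, ← Nat.card_eq_fintype_card, IsGalois.card_aut_eq_finrank, h2]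
  have hT : ∀ x : 𝓞 K, ((Algebra.trace ℤ (𝓞 K) x : ℤ) : K) = (x : K) + σ x := fun x => by
    have h1 := trace_eq_sum_automorphisms (K := ℚ) (L := K) (x : K)
    rw [huniv, Finset.sum_pair hσ.symm, ← Algebra.coe_trace_int] at h1
    simpa using h1
  rw [← NumberField.discr_eq_discr K b, Module.Basis.coe_mk, Algebra.discr_def, Matrix.det_fin_two]
  simp only [Algebra.traceMatrix_apply, Algebra.traceForm_apply, Matrix.cons_val_zero,
    Matrix.cons_val_one, one_mul, mul_one]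
  refine Int.cast_injective (α := K) ?_
  push_cast
  simp only [hT]
  push_cast
  simp only [map_one, map_mul, hθO, hσθ]
  linear_combination (4 : K) * hθ

/-- No real embedding. -/
theorem isTotallyComplex : IsTotallyComplex K := by
  refine ⟨fun w => InfinitePlace.not_isReal_iff_isComplex.mp fun hw => ?_⟩
  have h := congrArg (InfinitePlace.embedding_of_isReal hw) hθ
  rw [map_pow, map_neg, map_mul, map_ofNat, map_natCast] at h
  have : (0 : ℝ) < m := Nat.cast_pos.mpr (Nat.pos_of_ne_zero hm)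
  nlinarith [sq_nonneg (InfinitePlace.embedding_of_isReal hw θ)]

/-- The units are `±1`. -/
theorem units_eq (hodd : Odd m) (hsq : Squarefree m) (u : (𝓞 K)ˣ) : u = 1 ∨ u = -1 := by
  have := isTotallyComplex hθ hm h2
  obtain ⟨σ, hσ, hσθ⟩ := exists_conj_neg hθ hm h2
  have key : ∀ (x : K) (c : ℕ), 0 < c → x ^ 2 = -(c : K) → ∃ B : ℤ, 2 * (m : ℤ) * B ^ 2 = c := by
    intro x c hc hx
    have hint : IsIntegral ℤ x := IsIntegral.of_pow two_pos (by
      rw [hx, show -(c : K) = algebraMap ℤ K (-(c : ℤ)) by simp]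
      exact isIntegral_algebraMap)
    obtain ⟨A, B, hAB⟩ := exists_intCast_coords hθ hm h2 hodd hsq ⟨x, hint⟩
    change x = _ at hAB
    rw [hAB] at hx
    have hx' := congrArg σ hx
    simp only [map_pow, map_add, map_mul, map_intCast, map_neg, map_natCast, hσθ] at hx'
    have h1 : ((A ^ 2 - 2 * m * B ^ 2 + c : ℤ) : K) = 0 := by
      push_cast; linear_combination (1 / 2 : K) * hx + (1 / 2 : K) * hx' - (B : K) ^ 2 * hθ
    have h1' : A ^ 2 - 2 * (m : ℤ) * B ^ 2 + c = 0 := Int.cast_eq_zero.mp h1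
    have h2' : (A : K) * B * θ = 0 := by linear_combination (1 / 4 : K) * hx - (1 / 4 : K) * hx'
    have hθ0 : θ ≠ 0 := fun h => by
      rw [h] at hθ
      have : ((2 * m : ℕ) : K) = 0 := by push_cast; linear_combination hθ
      exact hm (by simpa using Nat.cast_eq_zero.mp this)
    rcases mul_eq_zero.mp ((mul_eq_zero.mp h2').resolve_right hθ0) with h | h
    · refine ⟨B, ?_⟩
      rw [Int.cast_eq_zero.mp h] at h1'
      linarith
    · rw [Int.cast_eq_zero.mp h] at h1'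
      have : (0 : ℤ) < c := by exact_mod_cast hc
      nlinarith [sq_nonneg A]
  refine units_eq_one_or_eq_neg_one h2 (fun x hx => ?_) (fun x hx => ?_) u
  · obtain ⟨B, hB⟩ := key x 1 one_pos (by simpa using hx)
    have : Even ((1 : ℕ) : ℤ) := ⟨(m : ℤ) * B ^ 2, by rw [← hB]; ring⟩
    simp at this
  · obtain ⟨B, hB⟩ := key x 3 (by norm_num) (by simpa using hx)
    have : Even ((3 : ℕ) : ℤ) := ⟨(m : ℤ) * B ^ 2, by rw [← hB]; ring⟩
    simp [Int.even_iff] at this

end Gen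

/-- **The discriminant field of a tres model.** -/
theorem exists_discField_data {V : WeierstrassCurve ℤ} (hV : IsTresModel V) {K : Type} [Field K]
    [NumberField K] (hK : IsDiscField V K) :
    ∃ m : ℕ, Odd m ∧ Squarefree m ∧ m ≠ 1 ∧ NumberField.discr K = -(8 * (m : ℤ)) ∧
      ∏ p ∈ badPrimes V, p = 2 * m ∧ IsTotallyComplex K ∧ ∀ u : (𝓞 K)ˣ, u = 1 ∨ u = -1 := by
  obtain ⟨h2, s, hs⟩ := hK
  set S := badPrimes V with hS
  set N := V.Δ.natAbs
  have hN : N ≠ 0 := Int.natAbs_ne_zero.mpr hV.delta_ne_zero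
  have hmem : ∀ p ∈ S, p.Prime ∧ (p : ℤ) ∣ V.Δ := fun p hp => by
    rw [hS, badPrimes, Nat.mem_primeFactors] at hp
    exact ⟨hp.1, Int.natCast_dvd.mpr hp.2.1⟩
  have h2S : 2 ∈ S := Nat.mem_primeFactors.mpr ⟨Nat.prime_two, Int.natCast_dvd.mp hV.two_dvd, hN⟩
  set m := ∏ p ∈ S.erase 2, p
  have hprod : ∏ p ∈ S, p = 2 * m := (Finset.mul_prod_erase S _ h2S).symm
  have hodd : Odd m := by
    rw [← Nat.not_even_iff_odd, even_iff_two_dvd, Prime.dvd_finsetProd_iff Nat.prime_two.prime]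
    rintro ⟨p, hp, hdvd⟩
    obtain ⟨hne, hp'⟩ := Finset.mem_erase.mp hp
    exact hne ((Nat.prime_dvd_prime_iff_eq Nat.prime_two (hmem p hp').1).mp hdvd).symm
  have hsq : Squarefree m := by
    refine Finset.squarefree_prod_of_pairwise_isCoprime ?_ fun p hp =>
      (hmem p (Finset.mem_of_mem_erase hp)).1.squarefree
    intro p hp q hq hpq
    exact Nat.coprime_iff_isRelPrime.mp ((Nat.coprime_primes (hmem p (Finset.mem_of_mem_erase hp)).1
      (hmem q (Finset.mem_of_mem_erase hq)).1).mpr hpq)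
  have hm1 : m ≠ 1 := by
    obtain ⟨q, hq, h5, hd⟩ := hV.exists_five_le
    intro h
    have : q ∣ m := Finset.dvd_prod_of_mem _ (Finset.mem_erase.mpr ⟨by omega,
      Nat.mem_primeFactors.mpr ⟨hq, Int.natCast_dvd.mp hd, hN⟩⟩)
    rw [h] at this
    exact hq.ne_one (Nat.dvd_one.mp this)
  obtain ⟨c, hc0, hc⟩ : ∃ c : ℕ, c ≠ 0 ∧ N = 2 * m * c ^ 2 := by
    refine ⟨∏ p ∈ S, p ^ (N.factorization p / 2),
      Finset.prod_ne_zero_iff.mpr fun p hp => pow_ne_zero _ (hmem p hp).1.ne_zero, ?_⟩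
    rw [← hprod, ← Finset.prod_pow, ← Finset.prod_mul_distrib]
    conv_lhs => rw [Nat.prod_primeFactors_pow_factorization hN]
    refine Finset.prod_congr rfl fun p hp => ?_
    obtain ⟨k, hk⟩ := hV.odd_val p (hmem p hp).1 (hmem p hp).2
    rw [padicValInt, ← Nat.factorization_def _ (hmem p hp).1] at hk
    rw [← pow_mul, ← pow_succ', hk]
    congr 1
    omega
  have hm0 : m ≠ 0 := hodd.pos.ne'
  have hθ : (s / (c : K)) ^ 2 = -(2 * m : K) := by
    have hΔ : V.Δ = -((N : ℕ) : ℤ) := by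
      rw [Int.ofNat_natAbs_of_nonpos hV.delta_neg.le, neg_neg]
    rw [div_pow, hs, hΔ, hc]
    have : (c : K) ≠ 0 := Nat.cast_ne_zero.mpr hc0
    push_cast
    field_simp
  exact ⟨m, hodd, hsq, hm1, discr_eq hθ hm0 h2 hodd hsq, hprod, isTotallyComplex hθ hm0 h2,
    units_eq hθ hm0 h2 hodd hsq⟩

end Fermat.Agent.TwoAdic.RingClass
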