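import Fermat.Agent.TwoAdic.RingClass.Exact
import Mathlib.NumberTheory.NumberField.Units.DirichletTheorem
import Mathlib.NumberTheory.NumberField.InfinitePlace.TotallyRealComplex
import Mathlib.RingTheory.RootsOfUnity.Minpoly
import Mathlib.RingTheory.Ideal.Norm.AbsNorm
import Mathlib.RingTheory.Norm.Transitivity
import Mathlib.FieldTheory.Galois.Basic

/-!
# Facts about imaginary quadratic fields used for the ring class group

The units are `±1` when neither `-1` nor `-3` is a square, and the conjugate of an ideal class is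
its inverse.
-/

set_option autoImplicit false

noncomputable section

open NumberField
open scoped Pointwise nonZeroDivisors

namespace Fermat.Agent.TwoAdic.RingClass

variable {K : Type*} [Field K] [NumberField K]

/-- The units are `±1`. -/
theorem units_eq_one_or_eq_neg_one [IsTotallyComplex K] (h2 : Module.finrank ℚ K = 2)
    (hi : ∀ x : K, x ^ 2 ≠ -1) (hω : ∀ x : K, x ^ 2 ≠ -3) (u : (𝓞 K)ˣ) : u = 1 ∨ u = -1 := by
  have hrank : Units.rank K = 0 := by
    have h1 := InfinitePlace.card_add_two_mul_card_eq_rank K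
    rw [IsTotallyComplex.nrRealPlaces_eq_zero, h2] at h1
    rw [Units.rank, InfinitePlace.card_eq_nrRealPlaces_add_nrComplexPlaces,
      IsTotallyComplex.nrRealPlaces_eq_zero]
    omega
  have hfin : IsOfFinOrder u := by
    obtain ⟨⟨z, e⟩, he, -⟩ := Units.exist_unique_eq_mul_prod K u
    have : IsEmpty (Fin (Units.rank K)) := by rw [hrank]; infer_instance
    rw [Finset.univ_eq_empty, Finset.prod_empty, mul_one] at he
    rw [he]
    exact (CommGroup.mem_torsion _).mp z.2
  set n := orderOf u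
  have hn0 : n ≠ 0 := hfin.orderOf_pos.ne'
  have hu : IsPrimitiveRoot (u : K) n :=
    IsPrimitiveRoot.coe_coe_iff.mpr (IsPrimitiveRoot.orderOf u)
  have hsub : ∀ d : ℕ, d ∣ n → ∃ z : K, IsPrimitiveRoot z d := fun d ⟨c, hc⟩ =>
    ⟨(u : K) ^ c, hu.pow (Nat.pos_of_ne_zero hn0) (by rw [hc, mul_comm])⟩
  have hle : ∀ p : ℕ, p.Prime → p ∣ n → p ≤ 3 := by
    intro p hp hpn
    obtain ⟨z, hz⟩ := hsub p hpn
    have h1 := hz.totient_le_degree_minpoly
    rw [Nat.totient_prime hp] at h1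
    have h3 := minpoly.natDegree_le (A := ℚ) z
    rw [minpoly.isIntegrallyClosed_eq_field_fractions' ℚ (hz.isIntegral hp.pos),
      (minpoly.monic (hz.isIntegral hp.pos)).natDegree_map, h2] at h3
    omega
  have h4 : ¬ 4 ∣ n := fun h => by
    obtain ⟨z, hz⟩ := hsub 4 h
    have hz2 : IsPrimitiveRoot (z ^ 2) 2 := hz.pow (by norm_num) (by norm_num)
    exact hi z hz2.eq_neg_one_of_two_right
  have h3 : ¬ 3 ∣ n := fun h => by
    obtain ⟨z, hz⟩ := hsub 3 h
    have hsum := hz.geom_sum_eq_zero (by norm_num)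
    simp only [Finset.sum_range_succ, Finset.sum_range_zero, pow_zero, pow_one, zero_add] at hsum
    exact hω (2 * z + 1) (by linear_combination 4 * hsum)
  have hn2 : n ∣ 2 := by
    rw [Nat.dvd_iff_prime_pow_dvd_dvd]
    intro p k hp hpk
    rcases Nat.eq_zero_or_pos k with rfl | hk
    · simp
    have hpn : p ∣ n := (dvd_pow_self p hk.ne').trans hpk
    have hp2 : p = 2 := by
      rcases Nat.lt_or_ge p 3 with h | h
      · have := hp.two_le; omega
      · exact absurd ((le_antisymm (hle p hp hpn) h) ▸ hpn) h3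
    subst hp2
    rcases Nat.lt_or_ge k 2 with h | h
    · exact pow_dvd_pow 2 (show k ≤ 1 by omega) |>.trans (by norm_num)
    · exact absurd ((pow_dvd_pow 2 h).trans hpk) h4
  have hu2 : ((u : 𝓞 K)) ^ 2 = 1 := by
    rw [← Units.val_pow_eq_pow_val, orderOf_dvd_iff_pow_eq_one.mp hn2, Units.val_one]
  exact (sq_eq_one_iff.mp hu2).imp (fun h => Units.ext h) (fun h => Units.ext h)

/-- `I · σ I = (N I)` for the nontrivial automorphism `σ` of a quadratic field. -/
theorem mul_smul_eq_span_absNorm [IsGalois ℚ K] (h2 : Module.finrank ℚ K = 2) {σ : K ≃ₐ[ℚ] K}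
    (hσ : σ ≠ 1) (I : Ideal (𝓞 K)) :
    I * σ • I = Ideal.span {(Ideal.absNorm I : 𝓞 K)} := by
  rcases eq_or_ne I ⊥ with rfl | hI
  · simp
  classical
  have huniv : (Finset.univ : Finset (K ≃ₐ[ℚ] K)) = {1, σ} := by
    refine (Finset.eq_univ_of_card _ ?_).symm
    rw [Finset.card_pair hσ.symm, ← Nat.card_eq_fintype_card, IsGalois.card_aut_eq_finrank, h2]
  have hI' : I ∈ (Ideal (𝓞 K))⁰ := mem_nonZeroDivisors_iff_ne_zero.mpr hI
  set h := Fintype.card (ClassGroup (𝓞 K))
  obtain ⟨x, hx⟩ := (mk0_eq_one_iff_span ((⟨I, hI'⟩ : (Ideal (𝓞 K))⁰) ^ h)).mp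
    (by rw [map_pow, pow_card_eq_one])
  change I ^ h = Ideal.span {x} at hx
  have hnorm : x * σ • x = ((Algebra.norm ℤ x : ℤ) : 𝓞 K) := by
    refine RingOfIntegers.ext ?_
    have h1 := Algebra.norm_eq_prod_automorphisms ℚ (x : K)
    rw [huniv, Finset.prod_pair hσ.symm, ← Algebra.coe_norm_int] at h1
    push_cast
    simpa [AlgEquiv.smul_def] using h1.symm
  have hpow : (I * σ • I) ^ h = Ideal.span {(Ideal.absNorm I : 𝓞 K)} ^ h := by
    rw [mul_pow, ← smul_pow', hx, Ideal.span_singleton_pow, Ideal.pointwise_smul_def,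
      Ideal.map_span, Set.image_singleton, Ideal.span_singleton_mul_span_singleton,
      MulSemiringAction.toRingHom_apply, hnorm, ← Nat.cast_pow, ← map_pow, hx,
      Ideal.absNorm_span_singleton, Ideal.span_singleton_eq_span_singleton]
    exact Int.associated_natAbs _ |>.map (Int.castRingHom (𝓞 K)) |>.trans (by simp)
  exact pow_left_injective (Fintype.card_ne_zero) hpow

variable {f : ℕ} [NeZero f]

/-- Conjugation inverts ring classes. -/
theorem cls_smul_eq_inv [IsGalois ℚ K] (h2 : Module.finrank ℚ K = 2) {σ : K ≃ₐ[ℚ] K}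
    (hσ : σ ≠ 1) (I : primeTo K f) (hσI : σ • (I : Ideal (𝓞 K)) ∈ primeTo K f) :
    cls (⟨σ • (I : Ideal (𝓞 K)), hσI⟩ : primeTo K f) = (cls I)⁻¹ := by
  have hmem := mul_mem I.2 hσI
  rw [mul_smul_eq_span_absNorm h2 hσ] at hmem
  have hcop : IsCoprime ((Ideal.absNorm (I : Ideal (𝓞 K)) : ℕ) : ℤ) (f : ℤ) := by
    rw [Int.isCoprime_iff_gcd_eq_one, Int.gcd_natCast_natCast]
    by_contra hne
    obtain ⟨p, hp, hpd⟩ := Nat.exists_prime_and_dvd hne
    obtain ⟨hpa, hpf⟩ := Nat.dvd_gcd_iff.mp hpd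
    have hunit : IsUnit ((p : ℕ) : 𝓞 K) := by
      have hc := (Ideal.isCoprime_span_singleton_iff _ _).mp hmem.2
      exact hc.isUnit_of_dvd' (Nat.cast_dvd_cast hpa) (Nat.cast_dvd_cast hpf)
    have h1 := Algebra.norm_algebraMap (R := ℤ) (S := 𝓞 K) (p : ℤ)
    rw [map_natCast, RingOfIntegers.rank, h2] at h1
    have h3 := hunit.map (Algebra.norm ℤ)
    rw [h1, isUnit_pow_iff two_ne_zero, Int.isUnit_iff_natAbs_eq, Int.natAbs_natCast] at h3
    exact hp.ne_one h3
  have hrat : RatMod f ((Ideal.absNorm (I : Ideal (𝓞 K)) : ℕ) : 𝓞 K) :=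
    ⟨Nat.cast_ne_zero.mpr (mt Ideal.absNorm_eq_zero_iff.mp I.2.1),
      (Ideal.absNorm (I : Ideal (𝓞 K)) : ℤ), hcop, by simp⟩
  have hmul := mul_smul_eq_span_absNorm h2 hσ (I : Ideal (𝓞 K))
  exact (cls_inv_eq_of_mul (J := ⟨σ • (I : Ideal (𝓞 K)), hσI⟩) hrat hmul).symm

omit [NeZero f] in
theorem isGalois_of_finrank_eq_two (h2 : Module.finrank ℚ K = 2) : IsGalois ℚ K :=
  have : Algebra.IsQuadraticExtension ℚ K := ⟨h2⟩
  inferInstance

end Fermat.Agent.TwoAdic.RingClass
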