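import Fermat.Agent.TwoAdic.RingClass.Cubic
import Fermat.Agent.TwoAdic.RingClass.Quadratic
import Fermat.Agent.TwoAdic.Selmer.Defs
import Fermat.Agent.ClassField.S14.Places
import Fermat.Agent.Density.PlacesConj
import Mathlib.RingTheory.RootsOfUnity.AlgebraicallyClosed
import Mathlib.RingTheory.RootsOfUnity.EnoughRootsOfUnity

/-!
# The cubic class character of a cubic with quadratic resolvent `K`

`j : K → ℚ̄` has the even permutations as its fixers and inertia contains no `3`-cycle: then a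
class character `χ` of order `3` exists, and at a prime unramified in the cubic the sum of `χ` over
the ideals of norm `l` is `1` or `0` according as Frobenius moves every root or not.
-/

set_option autoImplicit false

noncomputable section

open NumberField
open scoped nonZeroDivisors Pointwise

namespace Fermat.Agent.TwoAdic.RingClass

open Selmer (CubicRoots)
open ClassField.S14

local notation "Qb" => AlgebraicClosure ℚ
local notation "Γℚ" => (AlgebraicClosure ℚ ≃ₐ[ℚ] AlgebraicClosure ℚ)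

local instance : Algebra.IsAlgebraic ℚ Qb := AlgebraicClosure.isAlgebraic ℚ
local instance : IsAlgClosure ℚ Qb := ⟨inferInstance, inferInstance⟩
local instance : IsGalois ℚ Qb := IsAlgClosure.isGalois ℚ Qb

variable {K : Type*} [Field K] [NumberField K] {T : CubicRoots} {j : K →+* Qb}

/-- The fixers of `j K` are the even permutations. -/
def IsResolvent (T : CubicRoots) (j : K →+* Qb) : Prop :=
  ∀ σ : Γℚ, (∀ x : K, σ (j x) = j x) ↔ Equiv.Perm.sign (T.perm σ) = 1

/-- `T` is unramified at `l`. -/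
def UnramifiedOver (T : CubicRoots) (l : ℕ) : Prop :=
  ∀ A : ValuationSubring Qb, A.LiesOverPrime l → ∀ σ ∈ A.inertiaSubgroupIn ℚ, T.perm σ = 1

/-- Inertia contains no `3`-cycle. -/
def NoEvenInertia (T : CubicRoots) : Prop :=
  ∀ q : ℕ, q.Prime → ∀ A : ValuationSubring Qb, A.LiesOverPrime q →
    ∀ σ ∈ A.inertiaSubgroupIn ℚ, Equiv.Perm.sign (T.perm σ) = 1 → T.perm σ = 1

/-- An integer of `K` in a prime of norm `l` is congruent to a rational integer. -/
theorem exists_intCast_sub_mem {P : Ideal (𝓞 K)} {l : ℕ} (hl : l.Prime)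
    (hP : Ideal.absNorm P = l) (x : 𝓞 K) : ∃ a : ℤ, x - a ∈ P := by
  have : Fact l.Prime := ⟨hl⟩
  have hcard : Nat.card (𝓞 K ⧸ P) = l := by
    rw [ClassField.Recip.natCard_quotient_eq_absNorm, hP]
  have hmem : ((l : ℕ) : 𝓞 K) ∈ P := hP ▸ Ideal.absNorm_mem P
  have : Finite (𝓞 K ⧸ P) := Nat.finite_of_card_ne_zero (by rw [hcard]; exact hl.ne_zero)
  have : CharP (𝓞 K ⧸ P) l := by
    have : Nontrivial (𝓞 K ⧸ P) := Finite.one_lt_card_iff_nontrivial.mp
      (by rw [hcard]; exact hl.one_lt)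
    exact (CharP.charP_iff_prime_eq_zero hl).2
      (by rw [← map_natCast (Ideal.Quotient.mk P), Ideal.Quotient.eq_zero_iff_mem]; exact hmem)
  have hbij : Function.Bijective (ZMod.castHom (dvd_refl l) (𝓞 K ⧸ P)) :=
    Function.Injective.bijective_of_nat_card_le (ZMod.castHom_injective _)
      (by rw [hcard, Nat.card_zmod])
  obtain ⟨z, hz⟩ := hbij.2 (Ideal.Quotient.mk P x)
  obtain ⟨a, rfl⟩ := ZMod.intCast_surjective z
  exact ⟨a, Ideal.Quotient.eq.mp (by rw [← hz, map_intCast, map_intCast])⟩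

/-- At an unramified prime the nontrivial automorphism of `K` moves every prime of degree one. -/
theorem sub_smul_notMem (hj : IsResolvent T j) {l : ℕ} (hl : l.Prime) (hun : UnramifiedOver T l)
    {P : Ideal (𝓞 K)} [P.IsMaximal] (hlP : ((l : ℕ) : 𝓞 K) ∈ P) {s : K ≃ₐ[ℚ] K} (hs : s ≠ 1) :
    ¬ ∀ x : 𝓞 K, s • x - x ∈ P := by
  intro hin
  let E : IntermediateField ℚ Qb := j.toRatAlgHom.fieldRange
  let e : K ≃ₐ[ℚ] E := AlgEquiv.ofInjectiveField j.toRatAlgHom
  have : FiniteDimensional ℚ E := e.toLinearEquiv.finiteDimensional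
  let eO : 𝓞 K ≃+* 𝓞 E := RingOfIntegers.mapRingEquiv e.toRingEquiv
  have : (P.map (eO : 𝓞 K →+* 𝓞 E)).IsMaximal :=
    Ideal.map_isMaximal_of_equiv eO
  have hlE : ((l : ℕ) : 𝓞 E) ∈ P.map (eO : 𝓞 K →+* 𝓞 E) := by
    rw [← map_natCast (eO : 𝓞 K →+* 𝓞 E)]
    exact Ideal.mem_map_of_mem _ hlP
  obtain ⟨A, hA, -, -, hIn⟩ := exists_place_over E (P.map (eO : 𝓞 K →+* 𝓞 E)) hl hlE
  obtain ⟨σ, hσ, hσe⟩ := hIn ((e.symm.trans s).trans e) fun y => by
    obtain ⟨x, rfl⟩ := eO.surjective y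
    have h : ((e.symm.trans s).trans e) • eO x - eO x = eO (s • x - x) := by
      rw [map_sub]
      congr 1
      exact RingOfIntegers.ext (by
        show e (s (e.symm (e (x : K)))) = e (s (x : K))
        rw [AlgEquiv.symm_apply_apply])
    rw [h]
    exact Ideal.mem_map_of_mem (eO : 𝓞 K →+* 𝓞 E) (hin x)
  have hfix : ∀ x : K, σ (j x) = j x := (hj σ).mpr (by rw [hun A hA σ hσ, map_one])
  refine hs (AlgEquiv.ext fun x => j.injective ?_)
  have h1 := hσe (e x)
  rw [AlgEquiv.trans_apply, AlgEquiv.trans_apply, AlgEquiv.symm_apply_apply] at h1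
  exact h1.symm.trans (hfix x)

/-- An ideal of norm a prime `l` is a prime of degree one, and so is its conjugate. -/
theorem absNorm_smul_eq (h2 : Module.finrank ℚ K = 2) {s : K ≃ₐ[ℚ] K} (hs : s ≠ 1) {l : ℕ}
    (hl : l ≠ 0) {a : Ideal (𝓞 K)} (ha : Ideal.absNorm a = l) :
    Ideal.absNorm (s • a) = l := by
  have := isGalois_of_finrank_eq_two h2
  have h1 := congrArg Ideal.absNorm (mul_smul_eq_span_absNorm h2 hs a)
  rw [map_mul, ha, Ideal.absNorm_span_natCast, RingOfIntegers.rank, h2, sq] at h1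
  exact mul_left_cancel₀ hl h1

/-- Frobenius is even at a prime of degree one. -/
theorem sign_eq_one_of_absNorm_eq (hj : IsResolvent T j) (h2 : Module.finrank ℚ K = 2) {l : ℕ}
    (hl : l.Prime) (hun : UnramifiedOver T l) {a : Ideal (𝓞 K)} (ha : Ideal.absNorm a = l)
    {A : ValuationSubring Qb} (hA : A.LiesOverPrime l) {σ : Γℚ} (hσ : A.IsFrobeniusAt σ l) :
    Equiv.Perm.sign (T.perm σ) = 1 := by
  refine (hj σ).mp ?_
  letI : Algebra K Qb := j.toAlgebra
  have : IsScalarTower ℚ K Qb := IsScalarTower.of_algebraMap_eq fun x => (map_ratCast j x).symm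
  have := isGalois_of_finrank_eq_two h2
  set t := σ.restrictNormal K
  have ht : ∀ x : K, j (t x) = σ (j x) := fun x => AlgEquiv.restrictNormal_commutes σ K x
  suffices t = 1 by
    intro x
    rw [← ht, this]
    rfl
  by_contra ht1
  let P : Ideal (𝓞 K) := (Density.placeCenter A).comap
    ((j.comp (algebraMap (𝓞 K) K)).codRestrict (integralClosure ℤ Qb).toSubring fun x =>
      x.2.map (j.toIntAlgHom))
  have hPmem : ∀ x : 𝓞 K, x ∈ P ↔ j (x : K) ∈ A.nonunits := fun x =>
    Density.mem_placeCenter_iff A _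
  have hlP : ((l : ℕ) : 𝓞 K) ∈ P := by
    rw [hPmem]; simpa [ValuationSubring.LiesOverPrime] using hA
  have hP0 : P ≠ ⊥ := fun h => hl.ne_zero (by
    rw [h, Submodule.mem_bot, Nat.cast_eq_zero] at hlP; exact hlP)
  have hPp : P.IsPrime := Ideal.IsPrime.comap _
  have := hPp.isMaximal hP0
  have hnorm : Ideal.absNorm P = l := by
    have ha' := hl
    have hmax : a.IsMaximal := by
      have hp : a.IsPrime := Ideal.isPrime_of_irreducible_absNorm (ha ▸ hl)
      exact hp.isMaximal (fun h => hl.ne_zero (by rw [← ha, h, Ideal.absNorm_bot]))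
    have hsn := absNorm_smul_eq h2 ht1 hl.ne_zero ha
    have hmax' : (t • a).IsMaximal := by
      have hp : (t • a).IsPrime := Ideal.isPrime_of_irreducible_absNorm (hsn ▸ hl)
      exact hp.isMaximal (fun h => hl.ne_zero (by rw [← hsn, h, Ideal.absNorm_bot]))
    have hle : a * t • a ≤ P := by
      rw [mul_smul_eq_span_absNorm h2 ht1, ha, Ideal.span_singleton_le_iff_mem]; exact hlP
    rcases hPp.mul_le.mp hle with h | h
    · rw [← hmax.eq_of_le hPp.ne_top h, ha]
    · rw [← hmax'.eq_of_le hPp.ne_top h, hsn]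
  refine sub_smul_notMem hj hl hun hlP ht1 fun x => ?_
  obtain ⟨n, hn⟩ := exists_intCast_sub_mem hl hnorm x
  rw [Density.isFrobeniusAt_iff] at hσ
  have h1 : t • x - x ^ l ∈ P := by
    rw [hPmem]
    have := hσ.2 (j (x : K)) (Galois.mem_valuationSubring_of_isIntegral_int A (x.2.map j.toIntAlgHom))
    push_cast
    simp only [RingOfIntegers.coe_eq_algebraMap, map_sub, map_pow, AlgEquiv.smul_def, ht]
    exact this
  have hchar : (n : 𝓞 K) ^ l - n ∈ P := by
    have hd : (l : ℤ) ∣ n ^ l - n := by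
      have : Fact l.Prime := ⟨hl⟩
      rw [← ZMod.intCast_zmod_eq_zero_iff_dvd]
      push_cast
      rw [ZMod.pow_card, sub_self]
    obtain ⟨c, hc⟩ := hd
    have h := congrArg (Int.cast : ℤ → 𝓞 K) hc
    push_cast at h
    rw [h]
    exact P.mul_mem_right _ hlP
  have hpow : x ^ l - (n : 𝓞 K) ^ l ∈ P := Ideal.mem_of_dvd _ (sub_dvd_pow_sub_pow _ _ _) hn
  have := P.sub_mem (P.add_mem (P.add_mem h1 hpow) hchar) hn
  convert this using 1
  ring

/-- A prime with odd Frobenius is inert. -/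
theorem isPrime_condIdeal_of_odd (hj : IsResolvent T j) (h2 : Module.finrank ℚ K = 2) {l : ℕ}
    (hl : l.Prime) (hun : UnramifiedOver T l) {A : ValuationSubring Qb} (hA : A.LiesOverPrime l)
    {σ : Γℚ} (hσ : A.IsFrobeniusAt σ l) (hodd : Equiv.Perm.sign (T.perm σ) ≠ 1) :
    (condIdeal K l).IsPrime := by
  obtain ⟨P, hP, hle⟩ := Ideal.exists_le_maximal (condIdeal K l) fun h => hl.ne_one (by
    have h1 := congrArg Ideal.absNorm h
    rwa [condIdeal, Ideal.absNorm_span_natCast, Ideal.absNorm_top, RingOfIntegers.rank, h2,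
      pow_eq_one_iff_left two_ne_zero] at h1)
  have hdvd : Ideal.absNorm P ∣ l ^ 2 := by
    have := Ideal.absNorm_dvd_absNorm_of_le hle
    rwa [condIdeal, Ideal.absNorm_span_natCast, RingOfIntegers.rank, h2] at this
  obtain ⟨i, hi, hi'⟩ := (Nat.dvd_prime_pow hl).mp hdvd
  interval_cases i
  · exact absurd (Ideal.absNorm_eq_one_iff.mp (by simpa using hi')) hP.ne_top
  · exact absurd (sign_eq_one_of_absNorm_eq hj h2 hl hun (by simpa using hi') hA hσ) hodd
  · suffices condIdeal K l = P by rw [this]; exact hP.isPrime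
    obtain ⟨c, hc⟩ := Ideal.dvd_iff_le.mpr hle
    have h1 := congrArg Ideal.absNorm hc
    rw [condIdeal, Ideal.absNorm_span_natCast, RingOfIntegers.rank, h2, map_mul, hi'] at h1
    have hc1 : Ideal.absNorm c = 1 := by
      have hl0 : l ^ 2 ≠ 0 := pow_ne_zero _ hl.ne_zero
      exact (mul_eq_left₀ hl0).mp h1.symm
    rw [hc, Ideal.absNorm_eq_one_iff.mp hc1, Ideal.mul_top]

open scoped Classical in
/-- **The cubic class character** and its values on the ideals of prime norm. -/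
theorem exists_classChar (hj : IsResolvent T j) (h2 : Module.finrank ℚ K = 2)
    (hloc : NoEvenInertia T) (k : Type*) [Field k] [CharP k 2] [IsAlgClosed k] :
    ∃ χ : ClassGroup (𝓞 K) →* kˣ, (∀ c, χ c ^ 3 = 1) ∧ χ ≠ 1 ∧
      ∀ l : ℕ, l.Prime → UnramifiedOver T l → ∀ A : ValuationSubring Qb, A.LiesOverPrime l →
        ∀ σ : Γℚ, A.IsFrobeniusAt σ l →
          (∑ a ∈ (Ideal.finite_setOfPred_absNorm_eq (S := 𝓞 K) l).toFinset,
              if ha : a ∈ (Ideal (𝓞 K))⁰ then (χ (ClassGroup.mk0 ⟨a, ha⟩) : k) else 0) =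
            if ∀ i, T.perm σ i ≠ i then 1 else 0 := by
  classical
  have := isGalois_of_finrank_eq_two h2
  -- the splitting field
  let L : IntermediateField ℚ Qb := IntermediateField.adjoin ℚ (Set.range T.root)
  have hLfix : ∀ σ : Γℚ, (∀ i, σ (T.root i) = T.root i) → σ ∈ L.fixingSubgroup := fun σ hσ => by
    have : L ≤ IntermediateField.fixedField (Subgroup.zpowers σ) := by
      refine IntermediateField.adjoin_le_iff.mpr ?_
      rintro _ ⟨i, rfl⟩ ⟨g, n, rfl⟩
      exact MulAction.mem_stabilizer_iff.mp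
        (zpow_mem (show σ ∈ MulAction.stabilizer Γℚ (T.root i) from hσ i) n)
    exact fun x => this x.2 ⟨σ, Subgroup.mem_zpowers σ⟩
  have hroot : ∀ i, T.root i ∈ L := fun i => IntermediateField.subset_adjoin ℚ _ ⟨i, rfl⟩
  have hjL : ∀ x, j x ∈ L := fun x => by
    rw [← InfiniteGalois.fixedField_fixingSubgroup L, IntermediateField.mem_fixedField_iff]
    intro σ hσ
    refine (hj σ).mpr ?_ x
    rw [show T.perm σ = 1 from Equiv.ext fun i => T.root_injective
      ((T.apply_root σ i).symm.trans (hσ ⟨_, hroot i⟩)), map_one]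
  have : FiniteDimensional ℚ L :=
    IntermediateField.finiteDimensional_adjoin fun x _ => Algebra.IsIntegral.isIntegral x
  have : Normal ℚ L := IntermediateField.normal_iff_forall_map_le'.mpr fun σ => by
    rw [IntermediateField.adjoin_map]
    refine IntermediateField.adjoin.mono ℚ _ _ ?_
    rintro _ ⟨_, ⟨i, rfl⟩, rfl⟩
    exact ⟨T.perm σ i, (T.apply_root σ i).symm⟩
  have : IsGalois ℚ L := ⟨⟩
  letI : Algebra K L := (j.codRestrict L.toSubfield.toSubring hjL).toAlgebra
  have : IsScalarTower ℚ K L := IsScalarTower.of_algebraMap_eq fun x => Subtype.ext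
    (map_ratCast j x).symm
  have : IsGalois K L := IsGalois.tower_top_of_isGalois ℚ K L
  have : NumberField L := NumberField.of_module_finite ℚ L
  -- restriction to the roots
  let up : (L ≃ₐ[K] L) → Γℚ := fun g => (g.restrictScalars ℚ).liftNormal Qb
  have hup : ∀ g (x : L), up g (x : Qb) = (g x : Qb) := fun g x =>
    AlgEquiv.liftNormal_commutes (g.restrictScalars ℚ) Qb x
  have hupsign : ∀ g, Equiv.Perm.sign (T.perm (up g)) = 1 := fun g =>
    (hj _).mp fun x => (hup g ⟨j x, hjL x⟩).trans (congrArg Subtype.val (g.commutes x))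
  let pm : (L ≃ₐ[K] L) →* alternatingGroup (Fin 3) :=
    MonoidHom.mk' (fun g => ⟨T.perm (up g), Equiv.Perm.mem_alternatingGroup.mpr (hupsign g)⟩)
      fun g h => Subtype.ext (Equiv.ext fun i => T.root_injective (by
        show T.root (T.perm (up (g * h)) i) = T.root (T.perm (up g) (T.perm (up h) i))
        rw [← T.apply_root, ← T.apply_root, ← T.apply_root, hup _ ⟨_, hroot i⟩,
          hup _ ⟨_, hroot i⟩, hup]
        rfl))
  have hpm : Function.Injective pm := by
    refine (injective_iff_map_eq_one _).mpr fun g hg => AlgEquiv.ext fun x => Subtype.ext ?_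
    have hfix : up g ∈ L.fixingSubgroup := hLfix _ fun i => by
      rw [T.apply_root, show T.perm (up g) = 1 from congrArg Subtype.val hg]
      rfl
    exact (hup g x).symm.trans (hfix x)
  have down : ∀ σ : Γℚ, Equiv.Perm.sign (T.perm σ) = 1 →
      ∃ g : L ≃ₐ[K] L, (pm g : Equiv.Perm (Fin 3)) = T.perm σ ∧ ∀ x : L, (g x : Qb) = σ x := by
    intro σ hσ
    have hr : ∀ x : L, ((σ.restrictNormal L) x : Qb) = σ x := fun x =>
      AlgEquiv.restrictNormal_commutes σ L x
    refine ⟨AlgEquiv.ofRingEquiv (f := (σ.restrictNormal L).toRingEquiv)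
      (fun x => Subtype.ext ((hr _).trans ((hj σ).mpr hσ x))), ?_, hr⟩
    refine Equiv.ext fun i => T.root_injective ?_
    show T.root (T.perm (up _) i) = T.root (T.perm σ i)
    rw [← T.apply_root, ← T.apply_root, hup _ ⟨_, hroot i⟩]
    exact hr ⟨_, hroot i⟩
  have hA3 : Nat.card (alternatingGroup (Fin 3)) = 3 := by
    rw [Nat.card_eq_fintype_card]
    decide
  have hd : Module.finrank K L = 3 := by
    have h1 := Subgroup.card_dvd_of_injective pm hpm
    rw [hA3, IsGalois.card_aut_eq_finrank] at h1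
    refine ((Nat.dvd_prime Nat.prime_three).mp h1).resolve_left fun h => ?_
    have hsub : Subsingleton (L ≃ₐ[K] L) := by
      rw [← Finite.card_le_one_iff_subsingleton, IsGalois.card_aut_eq_finrank, h]
    obtain ⟨a, ha⟩ := T.transitive 1
    obtain ⟨b, hb⟩ := T.transitive 2
    have key : ∀ p q : Equiv.Perm (Fin 3), p 0 = 1 → q 0 = 2 →
        (Equiv.Perm.sign p = 1 ∧ p ≠ 1) ∨ (Equiv.Perm.sign q = 1 ∧ q ≠ 1) ∨
          (Equiv.Perm.sign (p * q) = 1 ∧ p * q ≠ 1) := by decide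
    obtain ⟨σ, hσ1, hσ⟩ : ∃ σ : Γℚ, Equiv.Perm.sign (T.perm σ) = 1 ∧ T.perm σ ≠ 1 := by
      rcases key _ _ ha hb with h' | h' | h'
      · exact ⟨a, h'⟩
      · exact ⟨b, h'⟩
      · exact ⟨a * b, by rw [map_mul]; exact h'⟩
    obtain ⟨g, hg, -⟩ := down σ hσ1
    rw [Subsingleton.elim g 1, map_one] at hg
    exact hσ hg.symm
  have hunr : ∀ Q : Ideal (𝓞 L), Q ≠ ⊥ → Q.IsPrime → Q.inertia (L ≃ₐ[K] L) = ⊥ := by
    intro Q hQ0 hQ
    have := hQ.isMaximal hQ0
    obtain ⟨q, n, -, hqQ, hq, -⟩ := Ideal.exists_prime_and_absNorm_eq_pow Q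
    obtain ⟨A, hA, -, -, hIn⟩ := exists_place_over L Q hq hqQ
    refine (Subgroup.eq_bot_iff_forall _).mpr fun g hg => hpm ?_
    obtain ⟨σ, hσ, hσg⟩ := hIn (g.restrictScalars ℚ) fun x => hg x
    have hperm : T.perm σ = (pm g : Equiv.Perm (Fin 3)) := Equiv.ext fun i => T.root_injective (by
      show _ = T.root (T.perm (up g) i)
      rw [← T.apply_root, ← T.apply_root, hup _ ⟨_, hroot i⟩]
      exact hσg ⟨_, hroot i⟩)
    rw [map_one]
    exact Subtype.ext (by rw [← hperm, hloc q hq A hA σ hσ (hperm ▸ hupsign g)]; rfl)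
  obtain ⟨φ, hφs, hφ⟩ := exists_cubic_classChar (L := L) hd hunr
  -- a faithful character of the Galois group
  have hcard : Nat.card (L ≃ₐ[K] L) = 3 := by rw [IsGalois.card_aut_eq_finrank, hd]
  have : Fact (Nat.Prime 3) := ⟨Nat.prime_three⟩
  have hcyc := isCyclic_of_prime_card (α := L ≃ₐ[K] L) hcard
  obtain ⟨g₀, hg₀⟩ := IsCyclic.exists_generator (α := L ≃ₐ[K] L)
  have hg₀3 : orderOf g₀ = 3 := by rw [orderOf_eq_card_of_forall_mem_zpowers hg₀, hcard]
  have h3k : ((3 : ℕ) : k) = 1 := by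
    rw [← ZMod.cast_natCast (R := k) (dvd_refl 2) 3, show ((3 : ℕ) : ZMod 2) = 1 by decide,
      ZMod.cast_one (dvd_refl 2)]
  have : NeZero ((3 : ℕ) : k) := ⟨by rw [h3k]; exact one_ne_zero⟩
  obtain ⟨z, hz⟩ : ∃ z : kˣ, orderOf z = 3 := by
    obtain ⟨ζ, hζ⟩ := HasEnoughRootsOfUnity.exists_primitiveRoot k 3
    exact ⟨(hζ.isUnit (by norm_num)).unit, by
      rw [← orderOf_units, IsUnit.unit_spec, ← hζ.eq_orderOf]⟩
  let ψ : (L ≃ₐ[K] L) →* kˣ := monoidHomOfForallMemZpowers hg₀ (g' := z) (by rw [hz, hg₀3])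
  have hψ3 : ∀ g, ψ g ^ 3 = 1 := fun g => by
    rw [← map_pow, ← hcard, pow_card_eq_one', map_one]
  have hψ : Function.Injective ψ := by
    refine (injective_iff_map_eq_one _).mpr fun g hg => ?_
    obtain ⟨n, rfl⟩ := hg₀ g
    rw [map_zpow, monoidHomOfForallMemZpowers_apply_gen, ← orderOf_dvd_iff_zpow_eq_one, hz] at hg
    rw [← orderOf_dvd_iff_zpow_eq_one, hg₀3]
    exact hg
  refine ⟨ψ.comp φ, fun c => hψ3 _, fun h => ?_, ?_⟩
  · obtain ⟨c, hc⟩ := hφs g₀
    have h1 : ψ g₀ = 1 := hc ▸ DFunLike.congr_fun h c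
    rw [monoidHomOfForallMemZpowers_apply_gen] at h1
    rw [h1, orderOf_one] at hz
    norm_num at hz
  intro l hl hun A hA σ hσ
  have hfrob : ∀ x : Qb, x ∈ A → σ x - x ^ l ∈ A.nonunits :=
    ((Density.isFrobeniusAt_iff).mp hσ).2
  by_cases hsign : Equiv.Perm.sign (T.perm σ) = 1
  swap
  · rw [Finset.sum_eq_zero fun a ha => ?_, if_neg]
    rotate_left
    · have hn : Ideal.absNorm a = l := by simpa using ha
      exact absurd (sign_eq_one_of_absNorm_eq hj h2 hl hun hn hA hσ) hsign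
    have key : ∀ p : Equiv.Perm (Fin 3), Equiv.Perm.sign p ≠ 1 → ¬ ∀ i, p i ≠ i := by decide
    exact key _ hsign
  obtain ⟨g, hpg, hg⟩ := down σ hsign
  let Q : Ideal (𝓞 L) := (Density.placeCenter A).comap (ringOfIntegersToOb L)
  have hQmem : ∀ x : 𝓞 L, x ∈ Q ↔ ((x : L) : Qb) ∈ A.nonunits := fun x =>
    Density.mem_placeCenter_iff A _
  have hQp : Q.IsPrime := Ideal.IsPrime.comap _
  set P := Q.under (𝓞 K)
  have hlP : ((l : ℕ) : 𝓞 K) ∈ P := by
    rw [Ideal.mem_comap, map_natCast, hQmem]; simpa [ValuationSubring.LiesOverPrime] using hA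
  have hPp : P.IsPrime := Ideal.IsPrime.under (𝓞 K) Q
  have hP0 : P ≠ ⊥ := fun h => hl.ne_zero (by
    rw [h, Submodule.mem_bot, Nat.cast_eq_zero] at hlP; exact hlP)
  have := hPp.isMaximal hP0
  have hfrobQ : ∀ x : 𝓞 L, g • x - x ^ l ∈ Q := fun x => by
    rw [hQmem]
    have := hfrob _ (Galois.mem_valuationSubring_of_isIntegral_int A
      (ringOfIntegersToOb L x).2)
    have hsub : (((g • x - x ^ l : 𝓞 L) : L) : Qb) = σ ((x : L) : Qb) - ((x : L) : Qb) ^ l := by
      simp only [RingOfIntegers.coe_eq_algebraMap, map_sub, map_pow]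
      push_cast
      simp only [AlgEquiv.smul_def, hg]
    rw [hsub]
    exact this
  have hnorm : Ideal.absNorm P = l := by
    obtain ⟨p, n, hn, hpP, hp, hPn⟩ := Ideal.exists_prime_and_absNorm_eq_pow P
    have hpl : p = l := by
      by_contra hne
      obtain ⟨u, v, huv⟩ := ((Nat.coprime_primes hp hl).mpr hne).isCoprime
      refine hPp.ne_top ((Ideal.eq_top_iff_one _).mpr ?_)
      have h1 := congrArg (Int.cast : ℤ → 𝓞 K) huv
      push_cast at h1
      rw [← h1]
      exact P.add_mem (P.mul_mem_left _ hpP) (P.mul_mem_left _ hlP)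
    subst hpl
    have hle : Nat.card (𝓞 K ⧸ P) ≤ p := by
      letI := Ideal.Quotient.field P
      have := ClassField.Recip.finite_quotient_of_isMaximal P
      have := Fintype.ofFinite (𝓞 K ⧸ P)
      rw [Nat.card_eq_fintype_card]
      have hdeg := Polynomial.card_le_degree_of_subset_roots
        (p := (Polynomial.X ^ p - Polynomial.X : Polynomial (𝓞 K ⧸ P))) (Z := Finset.univ) ?_
      · rwa [FiniteField.X_pow_card_sub_X_natDegree_eq _ hp.one_lt, Finset.card_univ] at hdeg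
      intro r _
      rw [Polynomial.mem_roots (FiniteField.X_pow_card_sub_X_ne_zero _ hp.one_lt)]
      obtain ⟨x, rfl⟩ := Ideal.Quotient.mk_surjective r
      have h1 : x - x ^ p ∈ P := by
        rw [Ideal.mem_comap, map_sub, map_pow]
        have := hfrobQ (algebraMap (𝓞 K) (𝓞 L) x)
        rwa [show g • algebraMap (𝓞 K) (𝓞 L) x = algebraMap (𝓞 K) (𝓞 L) x from
          smul_algebraMap g x] at this
      simp [Polynomial.IsRoot, ← map_pow, sub_eq_zero, Ideal.Quotient.eq,
        show x ^ p - x ∈ P from by simpa using P.neg_mem h1]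
    rw [ClassField.Recip.natCard_quotient_eq_absNorm, hPn] at hle
    rcases Nat.lt_or_ge 1 n with h | h
    · exact absurd hle (not_le.mpr (lt_self_pow₀ hp.one_lt h))
    · rw [hPn, show n = 1 by omega, pow_one]
  have harith : IsArithFrobAt (𝓞 K) g Q := fun x => by
    show g • x - x ^ Nat.card (𝓞 K ⧸ P) ∈ Q
    rw [ClassField.Recip.natCard_quotient_eq_absNorm, hnorm]
    exact hfrobQ x
  have hP' : P ∈ (Ideal (𝓞 K))⁰ := mem_nonZeroDivisors_iff_ne_zero.mpr hP0
  have hχP : (ψ.comp φ) (ClassGroup.mk0 ⟨P, hP'⟩) = ψ g :=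
    congrArg ψ (hφ ⟨P, hP'⟩ Q g hQp ⟨rfl⟩ harith)
  obtain ⟨s, hs⟩ : ∃ s : K ≃ₐ[ℚ] K, s ≠ 1 := by
    have : Nontrivial (K ≃ₐ[ℚ] K) := by
      rw [← Finite.one_lt_card_iff_nontrivial, IsGalois.card_aut_eq_finrank, h2]
      norm_num
    exact exists_ne 1
  have hne : P ≠ s • P := fun h => sub_smul_notMem hj hl hun hlP hs fun x => by
    obtain ⟨a, ha⟩ := exists_intCast_sub_mem hl hnorm x
    have h1 : s • (x - (a : 𝓞 K)) ∈ P := by
      rw [h]; exact Ideal.smul_mem_pointwise_smul s _ P ha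
    rw [smul_sub, show s • (a : 𝓞 K) = (a : 𝓞 K) from
      map_intCast (MulSemiringAction.toRingHom (K ≃ₐ[ℚ] K) (𝓞 K) s) a] at h1
    simpa using P.sub_mem h1 ha
  have hsn := absNorm_smul_eq h2 hs hl.ne_zero hnorm
  have hset : (Ideal.finite_setOfPred_absNorm_eq (S := 𝓞 K) l).toFinset = {P, s • P} := by
    refine Finset.ext fun a => ?_
    rw [Set.Finite.mem_toFinset, Finset.mem_insert, Finset.mem_singleton]
    refine ⟨fun ha => ?_, fun ha => ?_⟩
    · change Ideal.absNorm a = l at ha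
      have hap : a.IsPrime := Ideal.isPrime_of_irreducible_absNorm (ha ▸ hl)
      have hle : P * s • P ≤ a := by
        rw [mul_smul_eq_span_absNorm h2 hs, hnorm, Ideal.span_singleton_le_iff_mem, ← ha]
        exact Ideal.absNorm_mem a
      rcases hap.mul_le.mp hle with h | h
      · exact Or.inl ((‹P.IsMaximal›).eq_of_le hap.ne_top h).symm
      · have : (s • P).IsMaximal := (Ideal.isPrime_of_irreducible_absNorm (hsn ▸ hl)).isMaximal
          fun h0 => hl.ne_zero (by rw [← hsn, h0, Ideal.absNorm_bot])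
        exact Or.inr (this.eq_of_le hap.ne_top h).symm
    · rcases ha with rfl | rfl
      · exact hnorm
      · exact hsn
  have hP'' : s • P ∈ (Ideal (𝓞 K))⁰ := mem_nonZeroDivisors_iff_ne_zero.mpr fun h0 =>
    hl.ne_zero (by rw [← hsn, h0, Ideal.zero_eq_bot, Ideal.absNorm_bot])
  have hinv : (ψ.comp φ) (ClassGroup.mk0 ⟨s • P, hP''⟩) = (ψ g)⁻¹ := by
    refine eq_inv_of_mul_eq_one_right ?_
    rw [← hχP, ← map_mul, ← map_mul]
    refine (congrArg (ψ.comp φ) ((mk0_eq_one_iff_span _).mpr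
      ⟨(Ideal.absNorm P : 𝓞 K), mul_smul_eq_span_absNorm h2 hs P⟩)).trans (map_one _)
  rw [hset, Finset.sum_pair hne, dif_pos hP', dif_pos hP'', hχP, hinv]
  rcases eq_or_ne g 1 with rfl | hg1
  · rw [map_one, if_neg]
    · simp [CharTwo.add_self_eq_zero]
    · exact fun h => h 0 (by rw [← hpg, map_one]; rfl)
  · have hne1 : ψ g ≠ 1 := fun h => hg1 (hψ (h.trans (map_one _).symm))
    have key : ∀ p : Equiv.Perm (Fin 3), Equiv.Perm.sign p = 1 → p ≠ 1 → ∀ i, p i ≠ i := by decide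
    rw [if_pos (key _ hsign fun h => hg1 (hpm (Subtype.ext (by rw [hpg, h, map_one]; rfl))))]
    have h3 : ((ψ g : kˣ) : k) ^ 3 = 1 := by rw [← Units.val_pow_eq_pow_val, hψ3, Units.val_one]
    have hv : ((ψ g : kˣ) : k) ≠ 1 := fun h => hne1 (Units.ext h)
    have hi : ((ψ g)⁻¹ : kˣ).val = ((ψ g : kˣ) : k) ^ 2 := by
      rw [← Units.val_pow_eq_pow_val]
      exact congrArg Units.val (inv_eq_of_mul_eq_one_right (by rw [← pow_succ', hψ3]))
    have hsum : ((ψ g : kˣ) : k) ^ 2 + ψ g + 1 = 0 :=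
      (mul_eq_zero.mp (show (((ψ g : kˣ) : k) - 1) * (((ψ g : kˣ) : k) ^ 2 + ψ g + 1) = 0 by
        linear_combination h3)).resolve_left (sub_ne_zero.mpr hv)
    rw [hi, ← CharTwo.add_eq_zero]
    linear_combination hsum

end Fermat.Agent.TwoAdic.RingClass
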