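import Fermat.Agent.TwoAdic.RingClass.Exact
import Mathlib.RingTheory.IntegralDomain
import Mathlib.FieldTheory.Finite.Basic
import Mathlib.RingTheory.Ideal.Norm.AbsNorm

/-!
# The residue units of a squarefree conductor made of inert primes `q ≡ -1 mod 4`

`resEquiv`: `(𝓞 K / f)ˣ ≅ ∏ q, (𝓞 K / q)ˣ`, each factor cyclic of order `q² - 1`; the residues of
rational integers are killed by `q - 1`, hence are squares.
-/

set_option autoImplicit false

noncomputable section

open NumberField

namespace Fermat.Agent.TwoAdic.RingClass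

variable {K : Type*} [Field K] [NumberField K]

variable (K) in
/-- `f` is the product of a set `Q` of primes inert in the quadratic field `K` with `4 ∣ q + 1`. -/
structure IsAuxSet (f : ℕ) (Q : Finset ℕ) : Prop where
  finrank_eq : Module.finrank ℚ K = 2
  prime : ∀ q ∈ Q, q.Prime
  inert : ∀ q ∈ Q, (condIdeal K q).IsPrime
  four_dvd : ∀ q ∈ Q, 4 ∣ q + 1
  prod_eq : ∏ q ∈ Q, q = f

variable {f : ℕ} {Q : Finset ℕ}

namespace IsAuxSet

variable (h : IsAuxSet K f Q)
include h

theorem dvd {q : ℕ} (hq : q ∈ Q) : q ∣ f := h.prod_eq ▸ Finset.dvd_prod_of_mem _ hq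

theorem neZero : NeZero f :=
  ⟨h.prod_eq ▸ (Finset.prod_pos fun q hq => (h.prime q hq).pos).ne'⟩

theorem three_le {q : ℕ} (hq : q ∈ Q) : 3 ≤ q := by
  have := (h.prime q hq).two_le
  obtain ⟨c, hc⟩ := h.four_dvd q hq
  omega

end IsAuxSet

omit [NumberField K] in
theorem condIdeal_le_of_dvd {q : ℕ} (hq : q ∣ f) : condIdeal K f ≤ condIdeal K q := by
  obtain ⟨c, rfl⟩ := hq
  rw [condIdeal, condIdeal, Ideal.span_singleton_le_span_singleton, Nat.cast_mul]
  exact dvd_mul_right _ _

variable (K) in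
/-- Reduction from modulo `f` to modulo a divisor `q`. -/
def resMap {q : ℕ} (hq : q ∣ f) : ResUnits K f →* ResUnits K q :=
  Units.map (Ideal.Quotient.factor (condIdeal_le_of_dvd hq)).toMonoidHom

omit [NumberField K] in
theorem resMap_coe {q : ℕ} (hq : q ∣ f) {u : ResUnits K f} {x : 𝓞 K}
    (hx : Ideal.Quotient.mk (condIdeal K f) x = u) :
    (resMap K hq u : 𝓞 K ⧸ condIdeal K q) = Ideal.Quotient.mk _ x := by
  show Ideal.Quotient.factor (condIdeal_le_of_dvd hq) (u : 𝓞 K ⧸ condIdeal K f) = _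
  rw [← hx, Ideal.Quotient.factor_mk]

theorem natCard_quotient_condIdeal (q : ℕ) :
    Nat.card (𝓞 K ⧸ condIdeal K q) = q ^ Module.finrank ℚ K := by
  have h1 : Nat.card (𝓞 K ⧸ condIdeal K q) = Ideal.absNorm (condIdeal K q) := by
    rw [Ideal.absNorm_apply, Submodule.cardQuot_apply]
  rw [h1, condIdeal, Ideal.absNorm_span_singleton,
    show (q : 𝓞 K) = algebraMap ℤ (𝓞 K) q by simp, Algebra.norm_algebraMap, Int.natAbs_pow,
    Int.natAbs_natCast, RingOfIntegers.rank]

/-- The index of a product of subgroups. -/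
theorem index_pi_dep {ι : Type*} [Fintype ι] {G : ι → Type*} [∀ i, CommGroup (G i)]
    (H : ∀ i, Subgroup (G i)) : (Subgroup.pi Set.univ H).index = ∏ i, (H i).index := by
  let φ : (∀ i, G i) →* ∀ i, G i ⧸ H i :=
    MonoidHom.pi fun i => (QuotientGroup.mk' (H i)).comp (Pi.evalMonoidHom G i)
  have hsurj : Function.Surjective φ := fun w =>
    ⟨fun i => (w i).out, funext fun i => QuotientGroup.out_eq' (w i)⟩
  have hker : φ.ker = Subgroup.pi Set.univ H := by
    ext x
    simp [φ, MonoidHom.mem_ker, funext_iff, Subgroup.mem_pi]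
  rw [← hker, Subgroup.index_ker, MonoidHom.range_eq_top.mpr hsurj, Subgroup.card_top, Nat.card_pi]
  rfl

namespace IsAuxSet

variable (h : IsAuxSet K f Q)
include h

theorem natCard_resUnits {q : ℕ} (hq : q ∈ Q) : Nat.card (ResUnits K q) = q ^ 2 - 1 := by
  have : NeZero q := ⟨(h.prime q hq).ne_zero⟩
  have := h.inert q hq
  have hmax : (condIdeal K q).IsMaximal := Ideal.IsPrime.isMaximal this condIdeal_ne_bot
  let := Ideal.Quotient.field (condIdeal K q)
  rw [Nat.card_units, natCard_quotient_condIdeal, h.finrank_eq]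

theorem isCyclic_resUnits {q : ℕ} (hq : q ∈ Q) : IsCyclic (ResUnits K q) := by
  have : NeZero q := ⟨(h.prime q hq).ne_zero⟩
  have := h.inert q hq
  exact inferInstance

/-- Residues of integers prime to `f` are killed by `q - 1`. -/
theorem resMap_pow_eq_one {u : ResUnits K f} (hu : u ∈ ratUnits K f) {q : ℕ} (hq : q ∈ Q) :
    resMap K (h.dvd hq) u ^ (q - 1) = 1 := by
  have : Fact q.Prime := ⟨h.prime q hq⟩
  obtain ⟨a, ha, hua⟩ := hu
  have haq : (a : ZMod q) ≠ 0 := by
    intro h0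
    rw [ZMod.intCast_zmod_eq_zero_iff_dvd] at h0
    have h1 := ha.isUnit_of_dvd' h0 (Int.natCast_dvd_natCast.mpr (h.dvd hq))
    rw [Int.isUnit_iff_natAbs_eq, Int.natAbs_natCast] at h1
    exact (h.prime q hq).ne_one h1
  have hdvd : (q : ℤ) ∣ a ^ (q - 1) - 1 := by
    rw [← ZMod.intCast_zmod_eq_zero_iff_dvd]
    push_cast
    rw [ZMod.pow_card_sub_one_eq_one haq, sub_self]
  refine Units.ext ?_
  rw [Units.val_pow_eq_pow_val, resMap_coe _ hua, Units.val_one, ← map_pow,
    ← map_one (Ideal.Quotient.mk _), Ideal.Quotient.eq]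
  obtain ⟨c, hc⟩ := hdvd
  refine Ideal.mem_span_singleton.mpr ⟨(c : 𝓞 K), ?_⟩
  have h1 := congrArg (Int.cast : ℤ → 𝓞 K) hc
  push_cast at h1
  exact h1

/-- Reduction modulo every `q` at once. -/
theorem resPi_bijective :
    Function.Bijective fun (u : ResUnits K f) (q : Q) => resMap K (h.dvd q.2) u := by
  have := h.neZero
  constructor
  · intro u v huv
    refine Units.ext ?_
    obtain ⟨x, hx⟩ := Ideal.Quotient.mk_surjective (u : 𝓞 K ⧸ condIdeal K f)
    obtain ⟨y, hy⟩ := Ideal.Quotient.mk_surjective (v : 𝓞 K ⧸ condIdeal K f)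
    rw [← hx, ← hy, Ideal.Quotient.eq, condIdeal, Ideal.mem_span_singleton, ← h.prod_eq,
      Nat.cast_prod]
    refine Finset.prod_dvd_of_coprime ?_ fun q hq => ?_
    · intro a ha b hb hab
      have hcop : Nat.Coprime a b :=
        (Nat.coprime_primes (h.prime a ha) (h.prime b hb)).mpr hab
      exact hcop.cast
    · have h1 := congrArg (fun g => (g ⟨q, hq⟩ : ResUnits K q).val) huv
      simp only [resMap_coe _ hx, resMap_coe _ hy, Ideal.Quotient.eq] at h1
      exact Ideal.mem_span_singleton.mp h1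
  · intro w
    obtain ⟨x, hx⟩ := IsDedekindDomain.exists_forall_sub_mem_ideal (s := Q)
      (fun q => condIdeal K q) (fun _ => 1)
      (fun q hq => by
        have : NeZero q := ⟨(h.prime q hq).ne_zero⟩
        exact Ideal.prime_of_isPrime condIdeal_ne_bot (h.inert q hq))
      (fun a ha b hb hab heq => hab (by
        have h1 := natCard_quotient_condIdeal (K := K) a
        rw [heq, natCard_quotient_condIdeal, h.finrank_eq] at h1
        exact ((Nat.pow_left_injective (by norm_num)) h1).symm))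
      (fun q => (Ideal.Quotient.mk_surjective ((w q : ResUnits K q) : 𝓞 K ⧸ condIdeal K q)).choose)
    have hw : ∀ q : Q, Ideal.Quotient.mk (condIdeal K q) x = (w q : ResUnits K q) := fun q => by
      rw [← (Ideal.Quotient.mk_surjective ((w q : ResUnits K q) : 𝓞 K ⧸ condIdeal K q)).choose_spec,
        Ideal.Quotient.eq]
      simpa using hx q q.2
    have hunit : IsUnit (Ideal.Quotient.mk (condIdeal K f) x) := by
      have hcop : IsCoprime x ((f : ℕ) : 𝓞 K) := by
        rw [← h.prod_eq, Nat.cast_prod]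
        refine IsCoprime.prod_right fun q hq => ?_
        obtain ⟨c, hc⟩ := Ideal.Quotient.mk_surjective ((w ⟨q, hq⟩)⁻¹ : ResUnits K q).val
        have h1 : Ideal.Quotient.mk (condIdeal K q) (x * c) = Ideal.Quotient.mk _ 1 := by
          rw [map_mul, hw ⟨q, hq⟩, hc, Units.mul_inv, map_one]
        obtain ⟨d, hd⟩ := Ideal.mem_span_singleton'.mp (Ideal.Quotient.eq.mp h1)
        exact ⟨c, -d, by linear_combination -hd⟩
      obtain ⟨c, d, hcd⟩ := hcop
      refine isUnit_iff_exists_inv.mpr ⟨Ideal.Quotient.mk _ c, ?_⟩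
      rw [← map_mul, ← map_one (Ideal.Quotient.mk _), Ideal.Quotient.eq,
        show x * c - 1 = -(d * (f : 𝓞 K)) by linear_combination hcd]
      exact neg_mem (Ideal.mul_mem_left _ _ (Ideal.mem_span_singleton_self _))
    refine ⟨hunit.unit, funext fun q => Units.ext ?_⟩
    rw [resMap_coe _ (IsUnit.unit_spec hunit).symm, hw q]

/-- `(𝓞 K / f)ˣ ≅ ∏ q, (𝓞 K / q)ˣ`. -/
def resEquiv : ResUnits K f ≃* (∀ q : Q, ResUnits K q) :=
  MulEquiv.ofBijective (MonoidHom.pi fun q : Q => resMap K (h.dvd q.2)) h.resPi_bijective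

theorem resEquiv_apply (u : ResUnits K f) (q : Q) : h.resEquiv u q = resMap K (h.dvd q.2) u := rfl

/-- An element killed by `q - 1` is a fourth power in `(𝓞 K / q)ˣ`. -/
theorem exists_pow_four_eq {q : ℕ} (hq : q ∈ Q) {x : ResUnits K q} (hx : x ^ (q - 1) = 1) :
    ∃ y, y ^ 4 = x := by
  have : NeZero q := ⟨(h.prime q hq).ne_zero⟩
  have := h.isCyclic_resUnits hq
  obtain ⟨g, hg⟩ := IsCyclic.exists_ofOrder_eq_natCard (α := ResUnits K q)
  obtain ⟨k, rfl⟩ : ∃ k : ℕ, g ^ k = x := by
    have hfin : IsOfFinOrder g := isOfFinOrder_of_finite g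
    have htop : Subgroup.zpowers g = ⊤ := Subgroup.eq_top_of_card_eq _ (by
      rw [Nat.card_zpowers, hg])
    exact (hfin.mem_powers_iff_mem_zpowers).mpr (htop ▸ Subgroup.mem_top x)
  rw [← pow_mul] at hx
  have h1 := orderOf_dvd_of_pow_eq_one hx
  rw [hg, h.natCard_resUnits hq, show q ^ 2 - 1 = (q + 1) * (q - 1) by
    rw [← Nat.sq_sub_sq, one_pow]] at h1
  obtain ⟨c, hc⟩ := (h.four_dvd q hq).trans
    ((Nat.mul_dvd_mul_iff_right (by have := h.three_le hq; omega)).mp h1)
  exact ⟨g ^ c, by rw [← pow_mul, hc, mul_comm]⟩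

theorem mem_range_powMonoidHom_two_iff (u : ResUnits K f) :
    u ∈ (powMonoidHom 2 : ResUnits K f →* ResUnits K f).range ↔
      ∀ q : Q, ∃ y : ResUnits K q, y ^ 2 = resMap K (h.dvd q.2) u := by
  constructor
  · rintro ⟨y, rfl⟩ q
    exact ⟨resMap K (h.dvd q.2) y, (map_pow _ _ _).symm⟩
  · intro hy
    choose y hy using hy
    refine ⟨h.resEquiv.symm y, h.resEquiv.injective (funext fun q => ?_)⟩
    rw [powMonoidHom_apply, map_pow, MulEquiv.apply_symm_apply, Pi.pow_apply, hy, resEquiv_apply]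

theorem ratUnits_le_squares :
    ratUnits K f ≤ (powMonoidHom 2 : ResUnits K f →* ResUnits K f).range := fun u hu => by
  rw [h.mem_range_powMonoidHom_two_iff]
  intro q
  obtain ⟨y, hy⟩ := h.exists_pow_four_eq q.2 (h.resMap_pow_eq_one hu q.2)
  exact ⟨y ^ 2, by rw [← pow_mul, ← hy]⟩

theorem index_squares :
    (powMonoidHom 2 : ResUnits K f →* ResUnits K f).range.index = 2 ^ Q.card := by
  have := h.neZero
  have hq : ∀ q : Q, (powMonoidHom 2 : ResUnits K q →* ResUnits K q).range.index = 2 := by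
    intro q
    have : NeZero (q : ℕ) := ⟨(h.prime q q.2).ne_zero⟩
    have := h.isCyclic_resUnits q.2
    rw [IsCyclic.index_powMonoidHom_range, h.natCard_resUnits q.2]
    refine Nat.gcd_eq_right ?_
    obtain ⟨c, hc⟩ := h.four_dvd q q.2
    rw [show (q : ℕ) ^ 2 - 1 = ((q : ℕ) + 1) * ((q : ℕ) - 1) by rw [← Nat.sq_sub_sq, one_pow], hc]
    exact ⟨2 * c * ((q : ℕ) - 1), by ring⟩
  have hmap : ((powMonoidHom 2 : ResUnits K f →* ResUnits K f).range.map h.resEquiv.toMonoidHom) =
      Subgroup.pi Set.univ fun q : Q => (powMonoidHom 2 : ResUnits K q →* ResUnits K q).range := by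
    ext w
    rw [Subgroup.mem_map_equiv, h.mem_range_powMonoidHom_two_iff]
    simp only [Subgroup.mem_pi, Set.mem_univ, forall_const, MonoidHom.mem_range, powMonoidHom_apply,
      ← h.resEquiv_apply, MulEquiv.apply_symm_apply]
  rw [← Subgroup.index_map_of_bijective (f := h.resEquiv.toMonoidHom) h.resEquiv.bijective, hmap,
    index_pi_dep, Finset.prod_congr rfl fun q _ => hq q, Finset.prod_const, Finset.card_univ,
    Fintype.card_coe]

end IsAuxSet

end Fermat.Agent.TwoAdic.RingClass
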