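import Fermat.Agent.TwoAdic.RingClass.Roots
import Fermat.Agent.TwoAdic.RingClass.Dihedral
import Fermat.Agent.TwoAdic.RingClass.Local
import Fermat.Agent.TwoAdic.Contracts.Defs
import Fermat.Agent.TwoAdic.Switch.Galois.AuxCongruence

/-!
# The class character of the switched curve and its traces

For a tres model `V` and `K = ℚ(√Δ)`: a class character of order `3` whose sums over the ideals of
norm `l` are `a_l(V)` modulo `2`; auxiliary primes are inert in `K`.
-/

set_option autoImplicit false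

noncomputable section

open NumberField WeierstrassCurve
open scoped nonZeroDivisors WeierstrassCurve.Affine

namespace Fermat.Agent.TwoAdic.RingClass

local notation "Qb" => AlgebraicClosure ℚ
local notation "Γℚ" => (AlgebraicClosure ℚ ≃ₐ[ℚ] AlgebraicClosure ℚ)

local instance : Algebra.IsAlgebraic ℚ Qb := AlgebraicClosure.isAlgebraic ℚ

variable {V : WeierstrassCurve ℤ} {K : Type} [Field K] [NumberField K]

theorem isResolvent_of_discField (hV : IsTresModel V) (hK : IsDiscField V K)
    {T : Selmer.CubicRoots} (hT : ∀ i, twoDiv V (T.root i) = 0) (j : K →+* Qb) :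
    IsResolvent T j := by
  obtain ⟨h2, s, hs⟩ := hK
  have hjs : (j s) ^ 2 = (V.Δ : Qb) := by rw [← map_pow, hs, map_intCast]
  have hli : LinearIndependent ℚ ![(1 : K), s] :=
    (LinearIndependent.pair_iff' one_ne_zero).mpr fun a ha => by
      rw [← ha, Rat.smul_def, mul_one] at hs
      have h' : (a ^ 2 : ℚ) = (V.Δ : ℚ) := Rat.cast_injective (α := K) (by push_cast; exact hs)
      have : (V.Δ : ℚ) < 0 := by exact_mod_cast hV.delta_neg
      nlinarith [sq_nonneg a]
  have hspan := hli.span_eq_top_of_card_eq_finrank (by simp [h2])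
  intro σ
  rw [← apply_sqrtDiscr_eq_self_iff hT hV.delta_ne_zero σ hjs]
  refine ⟨fun h => h s, fun h x => ?_⟩
  have hx : x ∈ Submodule.span ℚ (Set.range ![(1 : K), s]) := hspan ▸ Submodule.mem_top
  rw [Matrix.range_cons_cons_empty, Submodule.mem_span_pair] at hx
  obtain ⟨a, b, rfl⟩ := hx
  simp only [map_add, Rat.smul_def, map_mul, map_ratCast, map_one, h]

theorem mem_decompositionSubgroup_of_inertia {A : ValuationSubring Qb} {σ : Γℚ}
    (hσ : σ ∈ A.inertiaSubgroupIn ℚ) : σ ∈ A.decompositionSubgroup ℚ := by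
  obtain ⟨x, -, rfl⟩ := hσ
  exact x.2

theorem noEvenInertia (hV : IsTresModel V) {T : Selmer.CubicRoots}
    (hT : ∀ i, twoDiv V (T.root i) = 0) : NoEvenInertia T := by
  intro q hq A hA σ hσ hsign
  by_cases hbad : (q : ℤ) ∣ V.Δ
  · obtain ⟨r, hr⟩ := exists_perm_fixed hT hV.delta_ne_zero hq hbad (hV.semistable q hq hbad) hA
    have key : ∀ (p : Equiv.Perm (Fin 3)) (r : Fin 3),
        Equiv.Perm.sign p = 1 → p r = r → p = 1 := by decide
    exact key _ r hsign (hr σ (mem_decompositionSubgroup_of_inertia hσ))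
  · exact perm_eq_one_of_good hT hV.delta_ne_zero hq (fun h => hbad (h ▸ hV.two_dvd)) hbad hA hσ

open scoped Classical in
/-- **The class character of the switched curve**: its sums over the ideals of norm `l` are the
`a_l` modulo `2`. -/
theorem exists_classChar_trace (hV : IsTresModel V) (hK : IsDiscField V K) (k : Type*) [Field k]
    [CharP k 2] [IsAlgClosed k] :
    ∃ χ : ClassGroup (𝓞 K) →* kˣ, (∀ c, χ c ^ 3 = 1) ∧ χ ≠ 1 ∧
      ∀ l : ℕ, l.Prime → V.IsGoodPrimeFor l →
        (∑ a ∈ (Ideal.finite_setOfPred_absNorm_eq (S := 𝓞 K) l).toFinset,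
            if ha : a ∈ (Ideal (𝓞 K))⁰ then (χ (ClassGroup.mk0 ⟨a, ha⟩) : k) else 0) =
          (V.apOfModel l : k) := by
  obtain ⟨T, hT⟩ := exists_twoTorsionRoots hV.delta_ne_zero hV.no_two_torsion
  let j : K →+* Qb := (IsAlgClosed.lift : K →ₐ[ℚ] Qb).toRingHom
  obtain ⟨χ, h3, hne, hsum⟩ := exists_classChar (isResolvent_of_discField hV hK hT j) hK.1
    (noEvenInertia hV hT) k
  refine ⟨χ, h3, hne, fun l hl hgood => ?_⟩
  have hl2 : l ≠ 2 := fun h => hgood (h ▸ hV.two_dvd)
  obtain ⟨A, σ, hA, hσ⟩ := Galois.exists_valuationSubring_isFrobeniusAt hl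
  rw [hsum l hl (fun B hB τ hτ => perm_eq_one_of_good hT hV.delta_ne_zero hl hl2 hgood hB hτ) A hA σ
    hσ]
  have h := congrArg (ZMod.castHom (dvd_refl 2) k)
    (apOfModel_cast hT hV.delta_ne_zero hl hl2 hgood hA hσ)
  rw [map_intCast] at h
  rw [h]
  split_ifs <;> simp

/-- Auxiliary primes are inert in `ℚ(√Δ)`. -/
theorem isPrime_condIdeal_of_isAuxPrime (hV : IsTresModel V) (hK : IsDiscField V K) {n q : ℕ}
    (hn : n ≠ 0) (hq : IsAuxPrime V n q) : (condIdeal K q).IsPrime := by
  obtain ⟨T, hT⟩ := exists_twoTorsionRoots hV.delta_ne_zero hV.no_two_torsion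
  let j : K →+* Qb := (IsAlgClosed.lift : K →ₐ[ℚ] Qb).toRingHom
  have hΔ := hV.delta_ne_zero
  obtain ⟨A, σ, hA, hσ⟩ := Galois.exists_valuationSubring_isFrobeniusAt hq.prime
  obtain ⟨g, hg⟩ := hq.frob A hA σ hσ
  have hperm : T.perm σ = T.perm (g * complexConjugation * g⁻¹) := by
    refine Equiv.ext fun i => T.root_injective ?_
    rw [← T.apply_root, ← T.apply_root]
    obtain ⟨y, h, h2⟩ := exists_point hT hΔ i
    have hmem : Affine.Point.some (T.root i) y h ∈
        Submodule.torsionBy ℤ ((V.map (Int.castRingHom ℚ))⁄Qb).Point ((2 ^ n : ℕ) : ℤ) := by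
      obtain ⟨m, rfl⟩ := Nat.exists_eq_succ_of_ne_zero hn
      rw [Submodule.mem_torsionBy_iff, natCast_zsmul, pow_succ, mul_smul, h2]
      exact nsmul_zero (2 ^ m)
    have h1 := congrArg Subtype.val (LinearMap.congr_fun hg ⟨_, hmem⟩)
    simp only [Affine.Point.galoisRepModuleEnd_apply] at h1
    change σ • Affine.Point.some (T.root i) y h =
      (g * complexConjugation * g⁻¹) • Affine.Point.some (T.root i) y h at h1
    rw [Affine.Point.algEquiv_smul_def, Affine.Point.algEquiv_smul_def, Affine.Point.map_some,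
      Affine.Point.map_some] at h1
    injection h1
  have hsign : Equiv.Perm.sign (T.perm σ) ≠ 1 := by
    have hc : Equiv.Perm.sign (T.perm (g * complexConjugation * g⁻¹)) =
        Equiv.Perm.sign (T.perm complexConjugation) := by
      simp [map_mul, map_inv, mul_comm, ← mul_assoc, Int.units_mul_self]
    rw [hperm, hc]
    obtain ⟨s, hs⟩ := IsAlgClosed.exists_pow_nat_eq ((V.Δ : Qb)) (n := 2) (by norm_num)
    rw [Ne, ← apply_sqrtDiscr_eq_self_iff hT hΔ _ hs]
    intro h
    have h' := congrArg complexEmbedding h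
    rw [complexEmbedding_complexConjugation] at h'
    obtain ⟨r, hr⟩ := Complex.conj_eq_iff_real.1 h'
    have h2 : (complexEmbedding s) ^ 2 = (V.Δ : ℂ) := by rw [← map_pow, hs, map_intCast]
    rw [hr, ← Complex.ofReal_pow] at h2
    have h3 := congrArg Complex.re h2
    simp only [Complex.ofReal_re, Complex.intCast_re] at h3
    have : (V.Δ : ℝ) < 0 := by exact_mod_cast hV.delta_neg
    nlinarith [sq_nonneg r]
  exact isPrime_condIdeal_of_odd (isResolvent_of_discField hV hK hT j) hK.1 hq.prime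
    (fun B hB τ hτ => perm_eq_one_of_good hT hΔ hq.prime hq.odd hq.good hB hτ) hA hσ hsign

/-- Auxiliary sets are auxiliary sets of inert primes. -/
theorem isAuxSet_of_aux (hV : IsTresModel V) (hK : IsDiscField V K) {n : ℕ} (hn : 2 ≤ n)
    {Q : Finset ℕ} (hQ : Fermat.Agent.TwoAdic.IsAuxSet V n Q) :
    IsAuxSet K (∏ q ∈ Q, q) Q where
  finrank_eq := hK.1
  prime q hq := (hQ.aux q hq).prime
  inert q hq := isPrime_condIdeal_of_isAuxPrime hV hK (by omega) (hQ.aux q hq)
  four_dvd q hq := (show 4 ∣ 2 ^ n from (by norm_num : (4 : ℕ) = 2 ^ 2) ▸ pow_dvd_pow 2 hn).trans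
    ((hQ.aux q hq).pow_dvd_succ hV.delta_ne_zero)
  prod_eq := rfl

end Fermat.Agent.TwoAdic.RingClass
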