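import Fermat.Agent.TwoAdic.Selmer.Defs
import Fermat.Agent.TwoAdic.Switch.Galois.TwoTorsion
import Fermat.Agent.EC.Mult.Decomposition
import Fermat.Agent.EC.Red.Qbar
import Fermat.Agent.EC.Frob.Trace
import Fermat.Agent.EC.Torsion.Count
import Mathlib.LinearAlgebra.Vandermonde

/-!
# The action of Galois on the roots of the two-division cubic

For an integral model: the roots as `CubicRoots`; the sign of the permutation is the action on
`√Δ`; inertia is trivial at odd good primes; the decomposition group fixes a root at multiplicative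
primes; `a_l` is odd exactly when Frobenius moves every root.
-/

set_option autoImplicit false

noncomputable section

open WeierstrassCurve
open scoped WeierstrassCurve.Affine

namespace Fermat.Agent.TwoAdic.RingClass

local notation "Qb" => AlgebraicClosure ℚ
local notation "Γℚ" => (AlgebraicClosure ℚ ≃ₐ[ℚ] AlgebraicClosure ℚ)

variable {V : WeierstrassCurve ℤ}

set_option quotPrecheck false in
local notation "EQ" => (V.map (Int.castRingHom ℚ))⁄Qb

/-- The two-division cubic at `e`. -/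
def twoDiv (V : WeierstrassCurve ℤ) (e : Qb) : Qb :=
  4 * e ^ 3 + (V.b₂ : Qb) * e ^ 2 + 2 * (V.b₄ : Qb) * e + (V.b₆ : Qb)

theorem apply_twoDiv (σ : Γℚ) (e : Qb) : σ (twoDiv V e) = twoDiv V (σ e) := by
  simp [twoDiv, map_add, map_mul, map_pow, map_intCast, map_ofNat]

/-- Three distinct roots with the discriminant. -/
theorem exists_three_roots (hΔ : V.Δ ≠ 0) :
    ∃ x : Fin 3 → Qb, Function.Injective x ∧ (∀ i, twoDiv V (x i) = 0) ∧
      (∀ e, twoDiv V e = 0 → ∃ i, x i = e) ∧
      (4 * (Matrix.vandermonde x).det) ^ 2 = (V.Δ : Qb) := by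
  classical
  let P : Cubic Qb := (V.map (Int.castRingHom Qb)).twoTorsionPolynomial
  have ha : P.a ≠ 0 := by simp [P, twoTorsionPolynomial]
  obtain ⟨x, y, z, h3⟩ := (Cubic.splits_iff_roots_eq_three (φ := RingHom.id Qb) ha).1
    (IsAlgClosed.splits _)
  have hmap : Cubic.map (RingHom.id Qb) P = P := rfl
  have hd := Cubic.discr_eq_prod_three_roots (φ := RingHom.id Qb) ha h3
  rw [twoTorsionPolynomial_discr] at hd
  simp only [RingHom.id_apply, P, twoTorsionPolynomial, map_Δ, eq_intCast] at hd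
  have hΔ' : (V.Δ : Qb) ≠ 0 := Int.cast_ne_zero.mpr hΔ
  have hxy : x ≠ y := fun h => hΔ' (by
    subst h; simpa using hd)
  have hxz : x ≠ z := fun h => hΔ' (by
    subst h; simpa using hd)
  have hyz : y ≠ z := fun h => hΔ' (by
    subst h; simpa using hd)
  have hmem : ∀ e : Qb, e ∈ P.roots ↔ twoDiv V e = 0 := fun e => by
    rw [Cubic.mem_roots_iff (Cubic.ne_zero_of_a_ne_zero ha)]
    simp [P, twoTorsionPolynomial, twoDiv]
  rw [hmap] at h3
  refine ⟨![x, y, z], ?_, ?_, ?_, ?_⟩
  · intro i j hij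
    fin_cases i <;> fin_cases j <;> first
      | rfl | exact absurd hij hxy | exact absurd hij.symm hxy | exact absurd hij hxz
      | exact absurd hij.symm hxz | exact absurd hij hyz | exact absurd hij.symm hyz
  · intro i
    rw [← hmem, h3]
    fin_cases i <;> simp
  · intro e he
    rw [← hmem, h3] at he
    simp only [Multiset.insert_eq_cons, Multiset.mem_cons, Multiset.mem_singleton] at he
    rcases he with h | h | h
    · exact ⟨0, h.symm⟩
    · exact ⟨1, h.symm⟩
    · exact ⟨2, h.symm⟩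
  · simp [Matrix.det_fin_three, Matrix.vandermonde]
    linear_combination (-1 / 16 : Qb) * hd

/-- A subgroup of permutations of three letters without a fixed point is transitive. -/
theorem apply_eq_self_of_forall_ne {G : Type*} [Group G] (p : G →* Equiv.Perm (Fin 3)) {j : Fin 3}
    (hj : j ≠ 0) (h0 : ∀ g, p g 0 ≠ j) (h1 : ∃ g, p g 0 ≠ 0) (g : G) : p g j = j := by
  obtain ⟨g₁, hg₁⟩ := h1
  have key : ∀ (a b : Equiv.Perm (Fin 3)) (i : Fin 3),
      i ≠ 0 → a 0 ≠ i → b 0 ≠ i → b 0 ≠ 0 → a (b 0) ≠ i → a i = i := by decide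
  refine key (p g) (p g₁) j hj (h0 g) (h0 g₁) hg₁ ?_
  simpa [map_mul] using h0 (g * g₁)

/-- The roots of the two-division cubic of a model without rational two-torsion. -/
theorem exists_twoTorsionRoots (hΔ : V.Δ ≠ 0)
    (hroot : ∀ x : ℚ, 4 * x ^ 3 + (V.b₂ : ℚ) * x ^ 2 + 2 * (V.b₄ : ℚ) * x + (V.b₆ : ℚ) ≠ 0) :
    ∃ T : Selmer.CubicRoots, ∀ i, twoDiv V (T.root i) = 0 := by
  have : Algebra.IsAlgebraic ℚ Qb := AlgebraicClosure.isAlgebraic ℚ
  have : IsAlgClosure ℚ Qb := ⟨inferInstance, inferInstance⟩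
  have : IsGalois ℚ Qb := IsAlgClosure.isGalois ℚ Qb
  obtain ⟨x, hinj, hx, hall, -⟩ := exists_three_roots hΔ
  have hex : ∀ (σ : Γℚ) (i : Fin 3), ∃ j, x j = σ (x i) := fun σ i =>
    hall _ (by rw [← apply_twoDiv, hx, map_zero])
  choose f hf using hex
  have hbij : ∀ σ, Function.Bijective (f σ) := fun σ =>
    Finite.injective_iff_bijective.mp fun i j h =>
      hinj (σ.injective (by rw [← hf, ← hf, h]))
  let perm : Γℚ →* Equiv.Perm (Fin 3) :=
    MonoidHom.mk' (fun σ => Equiv.ofBijective (f σ) (hbij σ)) fun σ τ => Equiv.ext fun i => hinj (by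
      show x (f (σ * τ) i) = x (f σ (f τ i))
      rw [hf, hf, hf]
      rfl)
  have hfix : ∀ i, ¬ ∀ σ, perm σ i = i := by
    intro i hi
    obtain ⟨r, hr⟩ := (InfiniteGalois.mem_range_algebraMap_iff_fixed (x i)).2 fun σ => by
      rw [← hf σ i]
      exact congrArg x (hi σ)
    refine hroot r ((algebraMap ℚ Qb).injective ?_)
    have := hx i
    rw [twoDiv, ← hr] at this
    simpa using this
  refine ⟨⟨x, hinj, perm, fun σ i => (hf σ i).symm, fun j => ?_⟩, hx⟩
  rcases eq_or_ne j 0 with rfl | hj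
  · exact ⟨1, by rw [map_one]; rfl⟩
  by_contra! hne
  refine hfix j (apply_eq_self_of_forall_ne perm hj hne ?_)
  by_contra! h0
  exact hfix 0 h0

variable {T : Selmer.CubicRoots} (hT : ∀ i, twoDiv V (T.root i) = 0)
include hT

theorem exists_root_eq (hΔ : V.Δ ≠ 0) {e : Qb} (he : twoDiv V e = 0) : ∃ i, T.root i = e := by
  obtain ⟨x, hinj, -, hall, -⟩ := exists_three_roots hΔ
  choose g hg using fun i => hall _ (hT i)
  have hg' : Function.Injective g := fun i j h =>
    T.root_injective (by rw [← hg, ← hg, h])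
  obtain ⟨i, hi⟩ := hall e he
  obtain ⟨j, rfl⟩ := (Finite.injective_iff_bijective.mp hg').2 i
  exact ⟨j, by rw [← hg, hi]⟩

omit hT in
theorem apply_det_vandermonde (σ : Γℚ) :
    σ (Matrix.vandermonde T.root).det =
      ((Equiv.Perm.sign (T.perm σ) : ℤ) : Qb) * (Matrix.vandermonde T.root).det := by
  rw [← Matrix.det_permute, AlgEquiv.map_det]
  congr 1
  ext i j
  simp [Matrix.vandermonde, ← T.apply_root]

/-- The sign of the permutation is the action on `√Δ`. -/
theorem apply_sqrtDiscr_eq_self_iff (hΔ : V.Δ ≠ 0) (σ : Γℚ) {s : Qb} (hs : s ^ 2 = (V.Δ : Qb)) :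
    σ s = s ↔ Equiv.Perm.sign (T.perm σ) = 1 := by
  obtain ⟨x, hinj, hx, hall, hdisc⟩ := exists_three_roots hΔ
  choose g hg using fun i => hall _ (hT i)
  have hg' : Function.Injective g := fun i j h =>
    T.root_injective (by rw [← hg, ← hg, h])
  let e : Equiv.Perm (Fin 3) := Equiv.ofBijective g (Finite.injective_iff_bijective.mp hg')
  have hvdm : (Matrix.vandermonde T.root).det ^ 2 = (Matrix.vandermonde x).det ^ 2 := by
    have h1 : Matrix.vandermonde T.root = (Matrix.vandermonde x).submatrix e id := by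
      ext i j
      simp [Matrix.vandermonde, e, hg]
    rw [h1, Matrix.det_permute, mul_pow, ← Int.cast_pow, ← Units.val_pow_eq_pow_val,
      Int.units_sq, Units.val_one, Int.cast_one, one_mul]
  have h4 : s ^ 2 = (4 * (Matrix.vandermonde T.root).det) ^ 2 := by
    rw [hs, ← hdisc, mul_pow, mul_pow, hvdm]
  have hs0 : s ≠ 0 := fun h => by
    have : (V.Δ : Qb) = 0 := by rw [← hs, h]; simp
    exact hΔ (Int.cast_eq_zero.mp this)
  have hσs : σ s = ((Equiv.Perm.sign (T.perm σ) : ℤ) : Qb) * s := by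
    rcases sq_eq_sq_iff_eq_or_eq_neg.1 h4 with h | h <;>
      rw [h] <;> simp [apply_det_vandermonde, mul_left_comm, map_ofNat]
  rcases Int.units_eq_one_or (Equiv.Perm.sign (T.perm σ)) with h | h
  · simp [hσs, h]
  · simp only [hσs, h, Units.val_neg, Units.val_one, Int.cast_neg, Int.cast_one, neg_one_mul]
    exact iff_of_false (fun h' => hs0 (by linear_combination (-1 / 2 : Qb) * h')) (by decide)

omit hT in
theorem two_torsion_y {x y : Qb} {h : (EQ).toAffine.Nonsingular x y}
    (h2 : 2 • Affine.Point.some x y h = (0 : (EQ).Point)) :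
    y = -((EQ).a₁ * x + (EQ).a₃) / 2 ∧ twoDiv V x = 0 := by
  have hneg : y = (EQ).toAffine.negY x y := by
    rw [two_nsmul, add_eq_zero_iff_eq_neg] at h2
    injection h2
  have heq := (Affine.equation_iff _ _).1 h.left
  rw [Affine.negY] at hneg
  refine ⟨by linear_combination (1 / 2 : Qb) * hneg, ?_⟩
  have hb2 : ((EQ).b₂ : Qb) = (V.b₂ : Qb) := by rw [baseChange_qbar_eq, map_b₂]; rfl
  have hb4 : ((EQ).b₄ : Qb) = (V.b₄ : Qb) := by rw [baseChange_qbar_eq, map_b₄]; rfl
  have hb6 : ((EQ).b₆ : Qb) = (V.b₆ : Qb) := by rw [baseChange_qbar_eq, map_b₆]; rfl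
  rw [twoDiv, ← hb2, ← hb4, ← hb6]
  simp only [WeierstrassCurve.b₂, WeierstrassCurve.b₄, WeierstrassCurve.b₆]
  linear_combination (-4 : Qb) * heq + (2 * y + (EQ).a₁ * x + (EQ).a₃) * hneg

omit hT in
/-- A point of order two is fixed exactly when its root is. -/
theorem smul_eq_self_iff (σ : Γℚ) {i : Fin 3} {y : Qb}
    {h : (EQ).toAffine.Nonsingular (T.root i) y}
    (h2 : 2 • Affine.Point.some (T.root i) y h = (0 : (EQ).Point)) :
    σ • Affine.Point.some (T.root i) y h = Affine.Point.some (T.root i) y h ↔ T.perm σ i = i := by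
  constructor
  · intro hs
    rw [Affine.Point.algEquiv_smul_def, Affine.Point.map_some] at hs
    injection hs with h1
    exact T.root_injective (by rw [← T.apply_root]; exact h1)
  · intro hi
    have hx : σ (T.root i) = T.root i := by rw [T.apply_root, hi]
    have hy : σ y = y := by
      obtain ⟨he, -⟩ := two_torsion_y h2
      have hc : ∀ n : ℤ, σ (n : Qb) = (n : Qb) := map_intCast σ
      rw [he, map_div₀, map_neg, map_add, map_mul, hx, map_ofNat]
      simp only [baseChange_qbar_eq, map_a₁, map_a₃, eq_intCast, hc]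
    simp [Affine.Point.algEquiv_smul_def, Affine.Point.map_some, hx, hy]

theorem exists_point (hΔ : V.Δ ≠ 0) (i : Fin 3) :
    ∃ (y : Qb) (h : (EQ).toAffine.Nonsingular (T.root i) y),
      2 • Affine.Point.some (T.root i) y h = (0 : (EQ).Point) :=
  exists_two_nsmul_eq_zero_of_root hΔ (hT i)

theorem exists_root_of_point (hΔ : V.Δ ≠ 0) {P : (EQ).Point} (hP : 2 • P = 0) (hP0 : P ≠ 0) :
    ∃ (i : Fin 3) (y : Qb) (h : (EQ).toAffine.Nonsingular (T.root i) y),
      P = Affine.Point.some (T.root i) y h := by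
  match P, hP, hP0 with
  | .zero, _, h => exact absurd rfl h
  | .some x y h, hP, _ =>
    obtain ⟨i, rfl⟩ := exists_root_eq hT hΔ (two_torsion_y hP).2
    exact ⟨i, y, h, rfl⟩

/-- Inertia is trivial at odd good primes. -/
theorem perm_eq_one_of_good (hΔ : V.Δ ≠ 0) {q : ℕ} (hq : q.Prime) (hq2 : q ≠ 2)
    (hgood : V.IsGoodPrimeFor q) {A : ValuationSubring Qb} (hA : A.LiesOverPrime q) {σ : Γℚ}
    (hσ : σ ∈ A.inertiaSubgroupIn ℚ) : T.perm σ = 1 := by
  refine Equiv.ext fun i => ?_
  obtain ⟨y, h, h2⟩ := exists_point hT hΔ i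
  refine (smul_eq_self_iff σ h2).mp ?_
  have hmem : Affine.Point.some (T.root i) y h ∈
      Submodule.torsionBy ℤ (EQ).Point ((2 : ℕ) : ℤ) := by
    rw [Submodule.mem_torsionBy_iff, natCast_zsmul]; exact h2
  exact congrArg Subtype.val (EC.galoisRepUnramifiedAt_of_isGoodPrimeFor V hq hgood
    (fun h => hq2 ((Nat.prime_dvd_prime_iff_eq hq Nat.prime_two).1 h)) A hA σ hσ ⟨_, hmem⟩)

/-- The decomposition group fixes a root at a multiplicative prime. -/
theorem exists_perm_fixed (hΔ : V.Δ ≠ 0) {q : ℕ} (hq : q.Prime) (hbad : (q : ℤ) ∣ V.Δ)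
    (hc4 : ¬ (q : ℤ) ∣ V.c₄) {A : ValuationSubring Qb} (hA : A.LiesOverPrime q) :
    ∃ r, ∀ σ ∈ A.decompositionSubgroup ℚ, T.perm σ r = r := by
  obtain ⟨N, hN, hstab, -, -⟩ :=
    EC.Mult.exists_decomposition_line (W := V) hq hA hΔ hbad hc4 Nat.prime_two
  have hfin : Finite N := Nat.finite_of_card_ne_zero (by rw [hN]; norm_num)
  obtain ⟨x, hx⟩ : ∃ x : N, x ≠ 0 := by
    have : Nontrivial N := Finite.one_lt_card_iff_nontrivial.mp (by rw [hN]; norm_num)
    exact exists_ne 0
  have h2 : 2 • ((x : Submodule.torsionBy ℤ (EQ).Point (2 : ℤ)) : (EQ).Point) = 0 := by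
    rw [← natCast_zsmul]; exact (Submodule.mem_torsionBy_iff _ _).1 x.1.2
  obtain ⟨r, y, h, hP⟩ := exists_root_of_point hT hΔ h2
    (fun h => hx (Subtype.ext (Subtype.ext h)))
  refine ⟨r, fun σ hσ => ?_⟩
  rw [hP] at h2
  refine (smul_eq_self_iff σ h2).mp ?_
  rw [← hP]
  by_contra hne
  have hcard : ∀ z : N, z = 0 ∨ z = x := by
    intro z
    by_contra! hz
    have h3 : ({0, x, z} : Finset N).card = 3 := by
      rw [Finset.card_insert_of_notMem (by simp [hx.symm, hz.1.symm]),
        Finset.card_pair hz.2.symm]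
    have := Fintype.ofFinite N
    have h4 := ({0, x, z} : Finset N).card_le_univ
    rw [h3, ← Nat.card_eq_fintype_card, hN] at h4
    omega
  rcases hcard ⟨σ • (x : Submodule.torsionBy ℤ (EQ).Point (2 : ℤ)), hstab σ hσ _ x.2⟩ with h | h
  · exact hx (Subtype.ext ((smul_eq_zero_iff_eq σ).mp (congrArg Subtype.val h)))
  · exact hne (congrArg (fun w : N => ((w.1 : Submodule.torsionBy ℤ (EQ).Point (2 : ℤ)) : (EQ).Point)) h)

/-- `a_l` is odd exactly when Frobenius moves every root. -/
theorem apOfModel_cast (hΔ : V.Δ ≠ 0) {l : ℕ} (hl : l.Prime) (hl2 : l ≠ 2)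
    (hgood : V.IsGoodPrimeFor l) {A : ValuationSubring Qb} (hA : A.LiesOverPrime l) {σ : Γℚ}
    (hσ : A.IsFrobeniusAt σ l) :
    (V.apOfModel l : ZMod 2) = if ∀ i, T.perm σ i ≠ i then 1 else 0 := by
  rw [← EC.galoisTrace_frobenius V hl hA hgood hσ (n := 2) one_lt_two
    (fun h => hl2 ((Nat.prime_dvd_prime_iff_eq hl Nat.prime_two).mp h)), Affine.Point.galoisTrace_def]
  set E2 := Submodule.torsionBy ℤ (EQ).Point ((2 : ℕ) : ℤ)
  have hcard : Nat.card E2 = 2 ^ 2 := by
    have : (V.map (Int.castRingHom ℚ)).IsElliptic :=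
      ⟨isUnit_iff_ne_zero.2 (by rw [map_Δ, eq_intCast]; exact_mod_cast hΔ)⟩
    exact EC.natCard_torsionBy_baseChange _ (Nat.cast_ne_zero.mpr two_ne_zero)
  have : Finite E2 := Nat.finite_of_card_ne_zero (by rw [hcard]; norm_num)
  have : Module.Finite (ZMod 2) E2 := Module.Finite.of_finite
  have hrank : Module.finrank (ZMod 2) E2 = 2 := by
    have h := Module.natCard_eq_pow_finrank (K := ZMod 2) (V := E2)
    rw [hcard, Nat.card_zmod] at h
    exact (Nat.pow_right_injective le_rfl h).symm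
  let b := Module.finBasisOfFinrankEq (ZMod 2) E2 hrank
  set g := Affine.Point.galoisRepModuleEnd (K := Qb) ℚ (V.map (Int.castRingHom ℚ)) 2 σ
  have hiff : (∀ i, T.perm σ i ≠ i) ↔ ∀ v : E2, v ≠ 0 → g v ≠ v := by
    constructor
    · intro hi v hv0 hgv
      obtain ⟨i, y, h, hP⟩ := exists_root_of_point hT hΔ (P := (v : (EQ).Point))
        (by rw [← natCast_zsmul]; exact (Submodule.mem_torsionBy_iff _ _).1 v.2)
        (fun h => hv0 (Subtype.ext h))
      refine hi i ((smul_eq_self_iff σ (h := h) ?_).mp ?_)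
      · rw [← hP, ← natCast_zsmul]; exact (Submodule.mem_torsionBy_iff _ _).1 v.2
      · rw [← hP]; exact congrArg Subtype.val hgv
    · intro hv i hi
      obtain ⟨y, h, h2⟩ := exists_point hT hΔ i
      refine hv ⟨_, by rw [Submodule.mem_torsionBy_iff, natCast_zsmul]; exact h2⟩ ?_ ?_
      · exact fun h0 => Affine.Point.some_ne_zero h (congrArg Subtype.val h0)
      · exact Subtype.ext ((smul_eq_self_iff σ h2).mpr hi)
  have hunit : IsUnit (LinearMap.toMatrix b b g).det :=
    (Matrix.isUnit_iff_isUnit_det _).1 ((Group.isUnit σ).map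
      ((LinearMap.toMatrixAlgEquiv b).toMulEquiv.toMonoidHom.comp
        (Affine.Point.galoisRepModuleEnd (K := Qb) ℚ (V.map (Int.castRingHom ℚ)) 2)))
  have key : ∀ M : Matrix (Fin 2) (Fin 2) (ZMod 2), M.det ≠ 0 →
      M.trace = if ∀ v : Fin 2 → ZMod 2, v ≠ 0 → M.mulVec v ≠ v then 1 else 0 := by decide
  rw [← LinearMap.trace_eq_matrix_trace (ZMod 2) b g |>.symm, key _ hunit.ne_zero]
  refine if_congr (Iff.trans ?_ hiff.symm) rfl rfl
  have hmv : ∀ v : E2, (LinearMap.toMatrix b b g).mulVec (b.equivFun v) = b.equivFun (g v) :=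
    fun v => LinearMap.toMatrix_mulVec_repr b b g v
  constructor
  · intro h v hv0 hgv
    refine h (b.equivFun v) (fun h0 => hv0 (b.equivFun.injective (by rw [h0, map_zero]))) ?_
    rw [hmv, hgv]
  · intro h v hv0 hgv
    obtain ⟨w, rfl⟩ := b.equivFun.surjective v
    refine h w (fun h0 => hv0 (by rw [h0, map_zero])) (b.equivFun.injective ?_)
    rw [← hmv, hgv]

end Fermat.Agent.TwoAdic.RingClass
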