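import Fermat.Agent.ClassField.UnramifiedReciprocity
import Mathlib.NumberTheory.NumberField.Cyclotomic.Basic

/-!
# The cubic class character of an unramified cubic extension

For `L/K` Galois of degree 3, unramified at every prime, Frobenius factors through a surjective
`χ : ClassGroup (𝓞 K) →* Gal(L/K)`. The reciprocity theorem over a field containing the cube roots
of unity descends along an extension of degree prime to 3.
-/

set_option autoImplicit false

noncomputable section

open NumberField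
open scoped nonZeroDivisors Pointwise

namespace Fermat.Agent.TwoAdic.RingClass

open ClassField ClassField.Recip

section ClassExt

variable (A B : Type*) [CommRing A] [CommRing B] [IsDedekindDomain A]
  [IsDedekindDomain B] [Algebra A B] [FaithfulSMul A B]

/-- Extension of nonzero ideals. -/
def idealExt0 : (Ideal A)⁰ →* (Ideal B)⁰ where
  toFun I := ⟨(I : Ideal A).map (algebraMap A B), mem_nonZeroDivisors_iff_ne_zero.mpr
    (Ideal.map_ne_bot_of_ne_bot (nonZeroDivisors.coe_ne_zero I))⟩
  map_one' := Subtype.ext (by simp [Ideal.one_eq_top, Ideal.map_top])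
  map_mul' I J := Subtype.ext (Ideal.map_mul _ _ _)

theorem mk0_idealExt0_eq {I J : (Ideal A)⁰} (h : ClassGroup.mk0 I = ClassGroup.mk0 J) :
    ClassGroup.mk0 (idealExt0 A B I) = ClassGroup.mk0 (idealExt0 A B J) := by
  obtain ⟨x, y, hx, hy, hxy⟩ := ClassGroup.mk0_eq_mk0_iff.mp h
  refine ClassGroup.mk0_eq_mk0_iff.mpr ⟨algebraMap A B x, algebraMap A B y,
    (map_ne_zero_iff _ (FaithfulSMul.algebraMap_injective A B)).mpr hx,
    (map_ne_zero_iff _ (FaithfulSMul.algebraMap_injective A B)).mpr hy, ?_⟩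
  have := congrArg (Ideal.map (algebraMap A B)) hxy
  simpa [Ideal.map_mul, Ideal.map_span, Set.image_singleton, idealExt0] using this

/-- Extension of ideal classes. -/
def classExt : ClassGroup A →* ClassGroup B where
  toFun c := ClassGroup.mk0 (idealExt0 A B (Function.surjInv ClassGroup.mk0_surjective c))
  map_one' := by
    rw [mk0_idealExt0_eq A B (J := 1), map_one, map_one]
    rw [Function.surjInv_eq ClassGroup.mk0_surjective, map_one]
  map_mul' a b := by
    rw [← map_mul, ← map_mul]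
    apply mk0_idealExt0_eq
    simp [map_mul, Function.surjInv_eq ClassGroup.mk0_surjective]

theorem classExt_mk0 (I : (Ideal A)⁰) :
    classExt A B (ClassGroup.mk0 I) = ClassGroup.mk0 (idealExt0 A B I) :=
  mk0_idealExt0_eq A B (Function.surjInv_eq ClassGroup.mk0_surjective _)

end ClassExt

/-- Homomorphisms on the class group are determined by the primes. -/
theorem classGroup_hom_eq_one {F : Type*} [Field F] [NumberField F] {G : Type*} [Monoid G]
    (φ : ClassGroup (𝓞 F) →* G)
    (h : ∀ (P : Ideal (𝓞 F)) [P.IsMaximal], φ (ClassGroup.mk0 (ideal0 P)) = 1) : φ = 1 := by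
  refine MonoidHom.ext fun c => ?_
  obtain ⟨⟨I, hI⟩, rfl⟩ := ClassGroup.mk0_surjective c
  revert hI
  induction I using UniqueFactorizationMonoid.induction_on_prime with
  | h₁ => intro hJ; exact absurd rfl (nonZeroDivisors.ne_zero hJ)
  | h₂ u hu =>
    intro hJ
    rw [(ClassGroup.mk0_eq_one_iff hJ).mpr ⟨1, ?_⟩, map_one, MonoidHom.one_apply]
    simpa using Ideal.isUnit_iff.mp hu
  | h₃ a q ha hq ih =>
    intro hJ
    have hq' : q.IsMaximal := (Ideal.isPrime_of_prime hq).isMaximal hq.ne_zero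
    have ha' : a ∈ (Ideal (𝓞 F))⁰ := mem_nonZeroDivisors_of_ne_zero ha
    rw [show (⟨q * a, hJ⟩ : (Ideal (𝓞 F))⁰) = ideal0 q * ⟨a, ha'⟩ from rfl, map_mul, map_mul, h q,
      ih ha', one_mul, MonoidHom.one_apply, MonoidHom.one_apply]

section BaseChange

variable {K L K' M : Type*} [Field K] [NumberField K] [Field L] [NumberField L] [Field K']
  [NumberField K'] [Field M] [NumberField M] [Algebra K L] [Algebra K K'] [Algebra K M]
  [Algebra L M] [Algebra K' M] [IsScalarTower K L M] [IsScalarTower K K' M] [IsGalois K L]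
  [IsGalois K' M]

variable (K L K' M) in
/-- Restriction `Gal(M/K') → Gal(L/K)`. -/
def restrictGal : (M ≃ₐ[K'] M) →* (L ≃ₐ[K] L) :=
  (AlgEquiv.restrictNormalHom L).comp (AlgEquiv.restrictScalarsHom K)

/-- **Descent of reciprocity** along an extension of degree prime to `p`. -/
theorem exists_classChar_of_baseChange {p : ℕ} [Fact p.Prime] (hp2 : p ≠ 2) {ζ : K'}
    (hζ : IsPrimitiveRoot ζ p) (hd : Module.finrank K L = p) (hd' : Module.finrank K' M = p)
    (hcop : (Module.finrank K K').Coprime p)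
    (hinj : Function.Injective (restrictGal K L K' M))
    (hunr : ∀ Q : Ideal (𝓞 L), Q ≠ ⊥ → Q.IsPrime → Q.inertia (L ≃ₐ[K] L) = ⊥) :
    ∃ χ : ClassGroup (𝓞 K) →* (L ≃ₐ[K] L), Function.Surjective χ ∧
      ∀ (P : (Ideal (𝓞 K))⁰) (Q : Ideal (𝓞 L)) (σ : L ≃ₐ[K] L), Q.IsPrime →
        Q.LiesOver (P : Ideal (𝓞 K)) → IsArithFrobAt (𝓞 K) σ Q →
          χ (ClassGroup.mk0 P) = σ := by
  classical
  have hp : p.Prime := Fact.out
  have hcard : Nat.card (L ≃ₐ[K] L) = p := by rw [IsGalois.card_aut_eq_finrank, hd]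
  have hcyc := isCyclic_of_prime_card (α := L ≃ₐ[K] L) hcard
  have hcomm : ∀ a b : L ≃ₐ[K] L, a * b = b * a := fun a b => mul_comm' a b
  letI : CommGroup (L ≃ₐ[K] L) := { (inferInstance : Group (L ≃ₐ[K] L)) with mul_comm := hcomm }
  have hmaxL : ∀ (W : Ideal (𝓞 M)) [W.IsMaximal], (W.under (𝓞 L)).IsMaximal :=
    fun W _ => Ideal.isMaximal_comap_of_isIntegral_of_isMaximal W
  have hunrL : ∀ (Q : Ideal (𝓞 L)) [Q.IsMaximal], Q.inertia (L ≃ₐ[K] L) = ⊥ := fun Q hQ =>
    hunr Q (Ring.ne_bot_of_isMaximal_of_not_isField hQ (RingOfIntegers.not_isField L)) hQ.isPrime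
  have hunrM : ∀ W : Ideal (𝓞 M), W ≠ ⊥ → W.IsPrime → W.inertia (M ≃ₐ[K'] M) = ⊥ := by
    intro W hW hW'
    have := hW'.isMaximal hW
    have := hmaxL W
    refine (Subgroup.eq_bot_iff_forall _).mpr fun g hg => hinj ?_
    have h1 : restrictGal K L K' M g ∈ (W.under (𝓞 L)).inertia (L ≃ₐ[K] L) := fun x => by
      rw [Ideal.under_def, Submodule.mem_toAddSubgroup, Ideal.mem_comap, map_sub]
      show algebraMap (𝓞 L) (𝓞 M) ((g.restrictScalars K).restrictNormal L • x) - _ ∈ W
      rw [algebraMap_restrictNormal_smul]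
      exact hg _
    rw [hunrL _, Subgroup.mem_bot] at h1
    rw [h1, map_one]
  obtain ⟨φ, hφ0, hφ⟩ := exists_classGroup_frobenius_hom (L := M) hp2 hζ hd' hunrM
  let φm : ClassGroup (𝓞 K') →* (M ≃ₐ[K'] M) :=
    { toFun := fun x => Additive.toMul (φ (Additive.ofMul x))
      map_one' := by simp
      map_mul' := fun x y => by simp }
  obtain ⟨e, he⟩ : ∃ e : ℕ, Module.finrank K K' * e % p = 1 := by
    obtain ⟨e, -, he⟩ := Nat.exists_mul_mod_eq_one_of_coprime hcop hp.one_lt
    exact ⟨e, he⟩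
  let ρ : ClassGroup (𝓞 K') →* (L ≃ₐ[K] L) := (restrictGal K L K' M).comp φm
  let χ : ClassGroup (𝓞 K) →* (L ≃ₐ[K] L) :=
    { toFun := fun x => ρ (classExt (𝓞 K) (𝓞 K') x) ^ e
      map_one' := by simp
      map_mul' := fun x y => by rw [map_mul, map_mul, Commute.mul_pow (hcomm _ _)] }
  -- the primes of `K'`
  have key : ∀ (P : Ideal (𝓞 K)) [P.IsMaximal] (Q : Ideal (𝓞 L)) [Q.IsPrime] [Q.LiesOver P]
      (σ : L ≃ₐ[K] L), IsArithFrobAt (𝓞 K) σ Q →
      ∀ (P' : Ideal (𝓞 K')) [P'.IsMaximal] [P'.LiesOver P],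
        ρ (ClassGroup.mk0 (ideal0 P')) = σ ^ P'.inertiaDeg (𝓞 K) := by
    intro P _ Q _ _ σ hσ P' _ _
    obtain ⟨W, hW, hWP'⟩ :=
      Ideal.exists_maximal_ideal_liesOver_of_isIntegral (S := 𝓞 M) P'
    have := hmaxL W
    obtain ⟨τ, hτ⟩ := exists_isArithFrobAt (K := K') W
    have hφτ : φm (ClassGroup.mk0 (ideal0 P')) = τ :=
      congrArg Additive.toMul (hφ (ideal0 P') W τ hW.isPrime hWP' hτ)
    have hunder : W.under (𝓞 K) = P := by
      rw [← Ideal.under_under (B := 𝓞 K') W, ← hWP'.over]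
      exact (Ideal.over_def P' P).symm
    have hσW : IsArithFrobAt (𝓞 K) σ (W.under (𝓞 L)) := by
      refine frob_of_under_eq hcomm ?_ hσ
      rw [Ideal.under_under, hunder]
      exact (Ideal.over_def Q P).symm
    show restrictGal K L K' M (φm _) = _
    rw [hφτ]
    refine restrictNormal_eq_frob_pow (W := W) (g := τ.restrictScalars K)
      (n := Ideal.absNorm (W.under (𝓞 K'))) hσW (hunrL _) (fun x => ?_) ?_
    · have := hτ x
      rw [← natCard_quotient_eq_absNorm]
      exact this
    · rw [hunder, ← hWP'.over, ← Ideal.absNorm_relNorm (R := 𝓞 K) (S := 𝓞 K') P',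
        Ideal.relNorm_eq_pow_of_isMaximal P' P, map_pow]
  have main : ∀ (P : (Ideal (𝓞 K))⁰) (Q : Ideal (𝓞 L)) (σ : L ≃ₐ[K] L), Q.IsPrime →
      Q.LiesOver (P : Ideal (𝓞 K)) → IsArithFrobAt (𝓞 K) σ Q → χ (ClassGroup.mk0 P) = σ := by
    intro P Q σ hQ hQP hσ
    have hPprime : (P : Ideal (𝓞 K)).IsPrime := hQP.over ▸ Ideal.IsPrime.under (𝓞 K) Q
    have hP0 : (P : Ideal (𝓞 K)) ≠ 0 := nonZeroDivisors.coe_ne_zero P
    have := hPprime.isMaximal hP0
    have : Fintype ((P : Ideal (𝓞 K)).primesOver (𝓞 K')) := Fintype.ofFinite _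
    have hext : classExt (𝓞 K) (𝓞 K') (ClassGroup.mk0 P) =
        ∏ P' : (P : Ideal (𝓞 K)).primesOver (𝓞 K'),
          (haveI := P'.2.1.isMaximal (Ideal.ne_bot_of_mem_primesOver hP0 P'.2)
           ClassGroup.mk0 (ideal0 P'.1)) ^ P'.1.ramificationIdx (𝓞 K) := by
      rw [classExt_mk0]
      simp only [← map_pow, ← map_prod]
      congr 1
      refine Subtype.ext ?_
      rw [Submonoid.coe_finsetProd]
      simp only [SubmonoidClass.coe_pow, coe_ideal0]
      show Ideal.map _ _ = _
      rw [Ideal.map_algebraMap_eq_finsetProd_pow hP0, ← Finset.prod_set_coe]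
      exact Finset.prod_congr (by ext; simp) fun _ _ => rfl
    show ρ _ ^ e = σ
    have hpow : ∀ P' : (P : Ideal (𝓞 K)).primesOver (𝓞 K'),
        ρ ((haveI := P'.2.1.isMaximal (Ideal.ne_bot_of_mem_primesOver hP0 P'.2)
           ClassGroup.mk0 (ideal0 P'.1)) ^ P'.1.ramificationIdx (𝓞 K)) =
          σ ^ (P'.1.ramificationIdx (𝓞 K) * P'.1.inertiaDeg (𝓞 K)) := fun P' => by
      have := P'.2.1.isMaximal (Ideal.ne_bot_of_mem_primesOver hP0 P'.2)
      have := P'.2.2
      rw [map_pow, key (P : Ideal (𝓞 K)) Q σ hσ P'.1, ← pow_mul, mul_comm]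
    rw [hext, map_prod, Finset.prod_congr rfl fun P' _ => hpow P', Finset.prod_pow_eq_pow_sum]
    rw [Ideal.sum_ramification_inertia_eq_finrank, ← IsFractionRing.finrank_eq (𝓞 K) K (𝓞 K') K',
      ← pow_mul, ← Nat.mod_add_div (Module.finrank K K' * e) p, he, pow_add, pow_one, pow_mul,
      ← hcard, pow_card_eq_one', one_pow, mul_one]
  refine ⟨χ, ?_, main⟩
  by_contra hns
  have hrange : χ.range = ⊥ := by
    have : Fact (Nat.card (L ≃ₐ[K] L)).Prime := ⟨hcard.symm ▸ hp⟩
    exact (Subgroup.eq_bot_or_eq_top_of_prime_card χ.range).resolve_right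
      fun h => hns (MonoidHom.range_eq_top.mp h)
  refine hφ0 (AddMonoidHom.ext fun x => ?_)
  have : φm = 1 := classGroup_hom_eq_one φm fun P' _ => hinj ?_
  · exact congrArg Additive.ofMul (DFunLike.congr_fun this x.toMul)
  have hPmax : (P'.under (𝓞 K)).IsMaximal := Ideal.isMaximal_comap_of_isIntegral_of_isMaximal P'
  obtain ⟨Q, hQ, hQP⟩ :=
    Ideal.exists_maximal_ideal_liesOver_of_isIntegral (S := 𝓞 L) (P'.under (𝓞 K))
  obtain ⟨σ, hσ⟩ := exists_isArithFrobAt (K := K) Q
  have hσ1 : σ = 1 := by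
    rw [← main (ideal0 (P'.under (𝓞 K))) Q σ hQ.isPrime hQP hσ]
    exact (Subgroup.eq_bot_iff_forall _).mp hrange _ ⟨_, rfl⟩
  rw [map_one]
  have := key (P'.under (𝓞 K)) Q σ hσ P'
  rw [hσ1, one_pow] at this
  exact this

end BaseChange

/-- **The cubic class character.** -/
theorem exists_cubic_classChar {K L : Type*} [Field K] [NumberField K] [Field L] [NumberField L]
    [Algebra K L] [IsGalois K L] (hd : Module.finrank K L = 3)
    (hunr : ∀ Q : Ideal (𝓞 L), Q ≠ ⊥ → Q.IsPrime → Q.inertia (L ≃ₐ[K] L) = ⊥) :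
    ∃ χ : ClassGroup (𝓞 K) →* (L ≃ₐ[K] L), Function.Surjective χ ∧
      ∀ (P : (Ideal (𝓞 K))⁰) (Q : Ideal (𝓞 L)) (σ : L ≃ₐ[K] L), Q.IsPrime →
        Q.LiesOver (P : Ideal (𝓞 K)) → IsArithFrobAt (𝓞 K) σ Q →
          χ (ClassGroup.mk0 P) = σ := by
  have : Fact (Nat.Prime 3) := ⟨Nat.prime_three⟩
  let Ω := AlgebraicClosure K
  let j : L →ₐ[K] Ω := IsAlgClosed.lift
  obtain ⟨ζ, hζ⟩ := HasEnoughRootsOfUnity.exists_primitiveRoot Ω 3
  let L₀ : IntermediateField K Ω := j.fieldRange
  let K' : IntermediateField K Ω := IntermediateField.adjoin K {ζ}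
  have hcyc : IsCyclotomicExtension {3} K K' :=
    hζ.intermediateField_adjoin_isCyclotomicExtension K
  have : FiniteDimensional K K' :=
    IntermediateField.adjoin.finiteDimensional (Algebra.IsIntegral.isIntegral ζ)
  have hK' : Module.finrank K K' ≤ 2 := by
    rw [IntermediateField.adjoin.finrank (Algebra.IsIntegral.isIntegral ζ)]
    have hsum := hζ.geom_sum_eq_zero (by norm_num)
    simp only [Finset.sum_range_succ, Finset.sum_range_zero, pow_zero, pow_one, zero_add] at hsum
    have hdvd : minpoly K ζ ∣ Polynomial.X ^ 2 + Polynomial.X + 1 :=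
      minpoly.dvd K ζ (by simp; linear_combination hsum)
    refine (Polynomial.natDegree_le_of_dvd hdvd ?_).trans (by compute_degree)
    intro h0
    simpa using congrArg (Polynomial.coeff · 0) h0
  have : Normal K K' := (IsCyclotomicExtension.isGalois {3} K K').to_normal
  have : FiniteDimensional K L₀ :=
    (AlgEquiv.ofInjectiveField j).toLinearEquiv.finiteDimensional
  have : Normal K L₀ := Normal.of_algEquiv (AlgEquiv.ofInjectiveField j)
  let M : IntermediateField K Ω := L₀ ⊔ K'
  let jL : L →ₐ[K] M := (IntermediateField.inclusion le_sup_left).comp j.rangeRestrict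
  let jK : K' →ₐ[K] M := IntermediateField.inclusion le_sup_right
  letI : Algebra L M := jL.toRingHom.toAlgebra
  letI : Algebra K' M := jK.toRingHom.toAlgebra
  have : IsScalarTower K L M := IsScalarTower.of_algebraMap_eq fun x => (jL.commutes x).symm
  have : IsScalarTower K K' M := IsScalarTower.of_algebraMap_eq fun x => (jK.commutes x).symm
  have : NumberField K' := NumberField.of_module_finite K K'
  have : NumberField M := NumberField.of_module_finite K M
  have : IsGalois K M := ⟨⟩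
  have : IsGalois K' M := IsGalois.tower_top_of_isGalois K K' M
  have hinj : Function.Injective (restrictGal K L K' M) := by
    refine (injective_iff_map_eq_one _).mpr fun g hg => ?_
    let E : IntermediateField K M :=
      IntermediateField.fixedField (Subgroup.zpowers (g.restrictScalars K))
    have hfix : ∀ x : M, g x = x → x ∈ E := fun x hx ⟨k, n, hn⟩ => by
      subst hn
      show ((g.restrictScalars K) ^ n) • x = x
      exact MulAction.mem_stabilizer_iff.mp
        (zpow_mem (show g.restrictScalars K ∈ MulAction.stabilizer (M ≃ₐ[K] M) x from hx) n)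
    have hle : M ≤ IntermediateField.lift E := by
      refine sup_le ?_ ?_
      · rintro x ⟨y, rfl⟩
        refine ⟨jL y, hfix _ ?_, rfl⟩
        have h1 := AlgEquiv.restrictNormal_commutes (g.restrictScalars K) L y
        rw [show (g.restrictScalars K).restrictNormal L = 1 from hg] at h1
        exact h1.symm
      · intro x hx
        exact ⟨jK ⟨x, hx⟩, hfix _ (g.commutes ⟨x, hx⟩), rfl⟩
    refine AlgEquiv.ext fun x => ?_
    obtain ⟨y, hy, hyx⟩ := hle x.2
    obtain rfl : y = x := Subtype.ext hyx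
    exact hy ⟨g.restrictScalars K, Subgroup.mem_zpowers _⟩
  have : Module.Free K' M := Module.Free.of_divisionRing K' M
  have hd' : Module.finrank K' M = 3 := by
    have h1 := Module.finrank_mul_finrank K K' M
    have h2 := Module.finrank_mul_finrank K L M
    rw [hd] at h2
    have h3 : 3 ∣ Module.finrank K K' * Module.finrank K' M := ⟨_, h1.trans h2.symm⟩
    have hpos : 0 < Module.finrank K K' := Module.finrank_pos
    have h4 : Nat.card (M ≃ₐ[K'] M) ∣ Nat.card (L ≃ₐ[K] L) :=
      Subgroup.card_dvd_of_injective _ hinj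
    rw [IsGalois.card_aut_eq_finrank, IsGalois.card_aut_eq_finrank, hd] at h4
    rcases (Nat.dvd_prime Nat.prime_three).mp h4 with h | h
    · rw [h, mul_one] at h3
      have := Nat.le_of_dvd hpos h3
      omega
    · exact h
  have hζ' : IsPrimitiveRoot (⟨ζ, IntermediateField.mem_adjoin_simple_self K ζ⟩ : K') 3 :=
    IsPrimitiveRoot.coe_submonoidClass_iff.mp hζ
  have hcop : (Module.finrank K K').Coprime 3 := by
    have hpos : 0 < Module.finrank K K' := Module.finrank_pos
    rw [Nat.coprime_comm, Nat.prime_three.coprime_iff_not_dvd]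
    intro h
    have := Nat.le_of_dvd hpos h
    omega
  exact exists_classChar_of_baseChange (M := M) (by norm_num) hζ' hd hd' hcop hinj hunr

end Fermat.Agent.TwoAdic.RingClass
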