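import Mathlib.NumberTheory.NumberField.ClassNumber
import Mathlib.RingTheory.ClassGroup.Basic
import Mathlib.RingTheory.Ideal.Norm.AbsNorm
import Mathlib.LinearAlgebra.FreeModule.IdealQuotient
import Mathlib.GroupTheory.Congruence.Basic

/-!
# The ring class group of conductor `f`

`RingClassGroup K f` is the group of nonzero ideals prime to `f` modulo the principal ideals with a
generator congruent to a rational integer prime to `f` modulo `f` (`RatMod`): for an imaginary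
quadratic `K` it is the Picard group of the order of conductor `f`. `cls` is the class map and
`clsFun` extends a homomorphism on classes by zero to all ideals.
-/

set_option autoImplicit false

noncomputable section

open NumberField
open scoped nonZeroDivisors

namespace Fermat.Agent.TwoAdic.RingClass

variable (K : Type*) [Field K] (f : ℕ)

/-- The ideal `f 𝓞 K`. -/
def condIdeal : Ideal (𝓞 K) := Ideal.span {(f : 𝓞 K)}

variable {K f}

/-- A nonzero element congruent modulo `f` to a rational integer prime to `f`. -/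
def RatMod (f : ℕ) (x : 𝓞 K) : Prop :=
  x ≠ 0 ∧ ∃ a : ℤ, IsCoprime a (f : ℤ) ∧ x - a ∈ condIdeal K f

theorem RatMod.one : RatMod f (1 : 𝓞 K) :=
  ⟨one_ne_zero, 1, isCoprime_one_left, by simp⟩

theorem RatMod.mul {x y : 𝓞 K} (hx : RatMod f x) (hy : RatMod f y) : RatMod f (x * y) := by
  obtain ⟨hx0, a, ha, hxa⟩ := hx
  obtain ⟨hy0, b, hb, hyb⟩ := hy
  refine ⟨mul_ne_zero hx0 hy0, a * b, ha.mul_left hb, ?_⟩
  rw [show x * y - ((a * b : ℤ) : 𝓞 K) = (x - a) * y + (a : 𝓞 K) * (y - b) by push_cast; ring]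
  exact add_mem (Ideal.mul_mem_right _ _ hxa) (Ideal.mul_mem_left _ _ hyb)

theorem RatMod.of_intCast [NumberField K] {a : ℤ} (ha : IsCoprime a (f : ℤ)) (ha0 : a ≠ 0) :
    RatMod f (a : 𝓞 K) :=
  ⟨Int.cast_ne_zero.mpr ha0, a, ha, by simp⟩

variable (K f) in
/-- Nonzero ideals prime to `f`. -/
def primeTo : Submonoid (Ideal (𝓞 K)) where
  carrier := {I | I ≠ ⊥ ∧ IsCoprime I (condIdeal K f)}
  one_mem' := ⟨one_ne_zero, isCoprime_one_left⟩
  mul_mem' := fun hI hJ => ⟨mul_ne_zero hI.1 hJ.1, hI.2.mul_left hJ.2⟩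

theorem mem_primeTo {I : Ideal (𝓞 K)} :
    I ∈ primeTo K f ↔ I ≠ ⊥ ∧ IsCoprime I (condIdeal K f) := Iff.rfl

theorem mul_mem_primeTo_iff {I J : Ideal (𝓞 K)} :
    I * J ∈ primeTo K f ↔ I ∈ primeTo K f ∧ J ∈ primeTo K f := by
  refine ⟨fun ⟨h0, h⟩ => ?_, fun ⟨hI, hJ⟩ => mul_mem hI hJ⟩
  exact ⟨⟨left_ne_zero_of_mul h0, h.of_mul_left_left⟩,
    ⟨right_ne_zero_of_mul h0, h.of_mul_left_right⟩⟩

theorem span_mem_primeTo_iff {x : 𝓞 K} :
    Ideal.span {x} ∈ primeTo K f ↔
      x ≠ 0 ∧ IsUnit (Ideal.Quotient.mk (condIdeal K f) x) := by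
  rw [mem_primeTo, Ne, Ideal.span_singleton_eq_bot]
  refine and_congr_right fun _ => ?_
  rw [Ideal.isCoprime_iff_exists, isUnit_iff_exists_inv]
  constructor
  · rintro ⟨i, hi, j, hj, hij⟩
    obtain ⟨c, rfl⟩ := Ideal.mem_span_singleton'.mp hi
    refine ⟨Ideal.Quotient.mk _ c, ?_⟩
    rw [← map_mul, ← map_one (Ideal.Quotient.mk _), Ideal.Quotient.eq,
      show x * c - 1 = -j by linear_combination hij]
    exact neg_mem hj
  · rintro ⟨c, hc⟩
    obtain ⟨c, rfl⟩ := Ideal.Quotient.mk_surjective c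
    rw [← map_mul, ← map_one (Ideal.Quotient.mk _), Ideal.Quotient.eq] at hc
    exact ⟨c * x, Ideal.mem_span_singleton'.mpr ⟨c, rfl⟩, -(x * c - 1), neg_mem hc, by ring⟩

theorem RatMod.isUnit_mk {x : 𝓞 K} (hx : RatMod f x) :
    IsUnit (Ideal.Quotient.mk (condIdeal K f) x) := by
  obtain ⟨-, a, ⟨u, v, huv⟩, hxa⟩ := hx
  rw [Ideal.Quotient.eq.mpr hxa, isUnit_iff_exists_inv]
  refine ⟨Ideal.Quotient.mk _ (u : 𝓞 K), ?_⟩
  rw [← map_mul, ← map_one (Ideal.Quotient.mk _), Ideal.Quotient.eq,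
    show (a : 𝓞 K) * (u : 𝓞 K) - 1 = -((v : 𝓞 K) * (f : 𝓞 K)) by
      have h : ((u * a + v * (f : ℤ) : ℤ) : 𝓞 K) = ((1 : ℤ) : 𝓞 K) := congrArg _ huv
      push_cast at h
      linear_combination h]
  exact neg_mem (Ideal.mul_mem_left _ _ (Ideal.mem_span_singleton_self _))

theorem RatMod.span_mem {x : 𝓞 K} (hx : RatMod f x) : Ideal.span {x} ∈ primeTo K f :=
  span_mem_primeTo_iff.mpr ⟨hx.1, hx.isUnit_mk⟩

variable (K f) in
/-- Same ring class: `(x) I = (y) J` with `x`, `y` rational modulo `f`. -/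
def rcCon : Con (primeTo K f) where
  r I J := ∃ x y : 𝓞 K, RatMod f x ∧ RatMod f y ∧
    Ideal.span {x} * (I : Ideal (𝓞 K)) = Ideal.span {y} * (J : Ideal (𝓞 K))
  iseqv :=
    { refl := fun I => ⟨1, 1, .one, .one, rfl⟩
      symm := fun ⟨x, y, hx, hy, h⟩ => ⟨y, x, hy, hx, h.symm⟩
      trans := fun {I J L} ⟨x, y, hx, hy, h⟩ ⟨x', y', hx', hy', h'⟩ =>
        ⟨x' * x, y * y', hx'.mul hx, hy.mul hy', by
          rw [← Ideal.span_singleton_mul_span_singleton, ← Ideal.span_singleton_mul_span_singleton,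
            mul_assoc, h, mul_assoc, ← mul_left_comm (Ideal.span {y}), h']⟩ }
  mul' := fun {I J L M} ⟨x, y, hx, hy, h⟩ ⟨x', y', hx', hy', h'⟩ =>
    ⟨x * x', y * y', hx.mul hx', hy.mul hy', by
      rw [← Ideal.span_singleton_mul_span_singleton, ← Ideal.span_singleton_mul_span_singleton,
        Submonoid.coe_mul, Submonoid.coe_mul, mul_mul_mul_comm, h, h', mul_mul_mul_comm]⟩

variable (K f) in
/-- The ring class group of conductor `f`. -/
abbrev RingClassGroup : Type _ := (rcCon K f).Quotient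

/-- The class of an ideal prime to `f`. -/
def cls : primeTo K f →* RingClassGroup K f := (rcCon K f).mk'

theorem cls_surjective : Function.Surjective (cls (K := K) (f := f)) := Con.mk'_surjective

theorem cls_eq_iff {I J : primeTo K f} :
    cls I = cls J ↔ ∃ x y : 𝓞 K, RatMod f x ∧ RatMod f y ∧
      Ideal.span {x} * (I : Ideal (𝓞 K)) = Ideal.span {y} * (J : Ideal (𝓞 K)) :=
  Con.eq (rcCon K f)

theorem cls_span_of_ratMod {x : 𝓞 K} (hx : RatMod f x) :
    cls (⟨Ideal.span {x}, hx.span_mem⟩ : primeTo K f) = 1 := by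
  rw [← map_one (cls (K := K) (f := f)), cls_eq_iff]
  exact ⟨1, x, .one, hx, by simp⟩

section ClsFun

variable {R : Type*} [CommMonoidWithZero R]

open Classical in
/-- A homomorphism on ring classes as a function on all ideals, zero off the ideals prime to `f`. -/
def clsFun (φ : RingClassGroup K f →* R) : Ideal (𝓞 K) →* R where
  toFun I := if h : I ∈ primeTo K f then φ (cls ⟨I, h⟩) else 0
  map_one' := by
    rw [dif_pos (one_mem _)]
    exact (congrArg φ (map_one cls)).trans (map_one φ)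
  map_mul' I J := by
    by_cases h : I ∈ primeTo K f ∧ J ∈ primeTo K f
    · rw [dif_pos (mul_mem h.1 h.2), dif_pos h.1, dif_pos h.2, ← map_mul, ← map_mul]
      rfl
    · rw [dif_neg (mt mul_mem_primeTo_iff.mp h)]
      rcases not_and_or.mp h with h | h <;> simp [h]

theorem clsFun_of_mem (φ : RingClassGroup K f →* R) {I : Ideal (𝓞 K)} (h : I ∈ primeTo K f) :
    clsFun φ I = φ (cls ⟨I, h⟩) := dif_pos h

theorem clsFun_of_not_mem (φ : RingClassGroup K f →* R) {I : Ideal (𝓞 K)}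
    (h : I ∉ primeTo K f) : clsFun φ I = 0 := dif_neg h

end ClsFun

variable [NumberField K]

theorem condIdeal_ne_bot [NeZero f] : condIdeal K f ≠ ⊥ := by
  simp [condIdeal, NeZero.ne f]

instance finite_quotient_condIdeal [NeZero f] : Finite (𝓞 K ⧸ condIdeal K f) :=
  Ideal.finiteQuotientOfFreeOfNeBot _ condIdeal_ne_bot

variable (K f) in
/-- `h · #(𝓞 K / f)^*`, an exponent of the ring class group. -/
def rcExponent : ℕ := Fintype.card (ClassGroup (𝓞 K)) * Nat.card (𝓞 K ⧸ condIdeal K f)ˣ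

variable (K f) in
theorem rcExponent_pos [NeZero f] : 0 < rcExponent K f := Nat.mul_pos Fintype.card_pos Nat.card_pos

theorem cls_pow_rcExponent (I : primeTo K f) : cls (I ^ rcExponent K f) = 1 := by
  let I₀ : (Ideal (𝓞 K))⁰ := ⟨I, mem_nonZeroDivisors_iff_ne_zero.mpr I.2.1⟩
  set h := Fintype.card (ClassGroup (𝓞 K))
  have hmem : (I : Ideal (𝓞 K)) ^ h ∈ (Ideal (𝓞 K))⁰ := pow_mem I₀.2 h
  have h1 : ClassGroup.mk0 (⟨(I : Ideal (𝓞 K)) ^ h, hmem⟩ : (Ideal (𝓞 K))⁰) = 1 := by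
    rw [show (⟨(I : Ideal (𝓞 K)) ^ h, hmem⟩ : (Ideal (𝓞 K))⁰) = I₀ ^ h from Subtype.ext rfl, map_pow,
      pow_card_eq_one]
  obtain ⟨x, hx⟩ := ((ClassGroup.mk0_eq_one_iff hmem).mp h1).principal
  replace hx : (I : Ideal (𝓞 K)) ^ h = Ideal.span {x} := hx
  have hxP : Ideal.span {x} ∈ primeTo K f := hx ▸ pow_mem I.2 _
  obtain ⟨hx0, hxu⟩ := span_mem_primeTo_iff.mp hxP
  set k := Nat.card (𝓞 K ⧸ condIdeal K f)ˣ
  have hk : RatMod f (x ^ k) := by
    refine ⟨pow_ne_zero _ hx0, 1, isCoprime_one_left, ?_⟩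
    rw [Int.cast_one, ← Ideal.Quotient.eq, map_pow, map_one]
    exact congrArg Units.val (pow_card_eq_one' (x := hxu.unit))
  rw [← cls_span_of_ratMod hk]
  congr 1
  refine Subtype.ext ?_
  rw [SubmonoidClass.coe_pow, rcExponent, pow_mul, hx, Ideal.span_singleton_pow]

instance [NeZero f] : CommGroup (RingClassGroup K f) :=
  { (inferInstance : CommMonoid (RingClassGroup K f)) with
    inv := fun c => c ^ (rcExponent K f - 1)
    inv_mul_cancel := fun c => by
      show c ^ (rcExponent K f - 1) * c = 1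
      obtain ⟨I, rfl⟩ := cls_surjective c
      rw [← pow_succ, Nat.sub_add_cancel (rcExponent_pos K f), ← map_pow, cls_pow_rcExponent] }

theorem cls_inv_eq_of_mul [NeZero f] {I J : primeTo K f} {x : 𝓞 K} (hx : RatMod f x)
    (h : (I : Ideal (𝓞 K)) * J = Ideal.span {x}) : (cls I)⁻¹ = cls J := by
  refine inv_eq_of_mul_eq_one_right ?_
  rw [← map_mul, ← cls_span_of_ratMod hx]
  exact congrArg cls (Subtype.ext h)

variable (K f) in
/-- Ideals prime to `f` as nonzero ideals. -/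
def primeToNonzero : primeTo K f →* (Ideal (𝓞 K))⁰ where
  toFun I := ⟨I, mem_nonZeroDivisors_iff_ne_zero.mpr I.2.1⟩
  map_one' := rfl
  map_mul' _ _ := rfl

/-- The map to the class group. -/
def toClassGroup : RingClassGroup K f →* ClassGroup (𝓞 K) :=
  (rcCon K f).lift ((ClassGroup.mk0 (R := 𝓞 K)).comp (primeToNonzero K f))
    fun I J ⟨x, y, hx, hy, h⟩ =>
      (ClassGroup.mk0_eq_mk0_iff (I := primeToNonzero K f I) (J := primeToNonzero K f J)).mpr
        ⟨x, y, hx.1, hy.1, h⟩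

theorem toClassGroup_cls (I : primeTo K f) :
    toClassGroup (cls I) = ClassGroup.mk0 (primeToNonzero K f I) :=
  Con.lift_mk' _ _

end Fermat.Agent.TwoAdic.RingClass
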