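import Fermat.Agent.TwoAdic.RingClass.Defs
import Mathlib.GroupTheory.QuotientGroup.Finite
import Mathlib.RingTheory.DedekindDomain.Factorization

/-!
# The exact sequence of the ring class group

`(𝓞 K / f)ˣ → RingClassGroup K f → ClassGroup (𝓞 K) → 1`; when the only units are `±1` the kernel
of the first map consists of the residues of rational integers.
-/

set_option autoImplicit false

noncomputable section

open NumberField
open scoped nonZeroDivisors

namespace Fermat.Agent.TwoAdic.RingClass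

variable {K : Type*} [Field K] {f : ℕ}

variable (K f) in
/-- Residues modulo `f`, as units. -/
abbrev ResUnits : Type _ := (𝓞 K ⧸ condIdeal K f)ˣ

variable [NumberField K] [NeZero f]

theorem exists_resLift (u : ResUnits K f) :
    ∃ x : 𝓞 K, x ≠ 0 ∧ Ideal.Quotient.mk (condIdeal K f) x = u := by
  obtain ⟨x, hx⟩ := Ideal.Quotient.mk_surjective (u : 𝓞 K ⧸ condIdeal K f)
  rcases eq_or_ne x 0 with rfl | h
  · refine ⟨(f : 𝓞 K), Nat.cast_ne_zero.mpr (NeZero.ne f), ?_⟩
    rw [← hx, map_zero, Ideal.Quotient.eq_zero_iff_mem]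
    exact Ideal.mem_span_singleton_self _
  · exact ⟨x, h, hx⟩

/-- A nonzero lift of a residue. -/
def resLift (u : ResUnits K f) : 𝓞 K := (exists_resLift u).choose

theorem resLift_ne_zero (u : ResUnits K f) : resLift u ≠ 0 := (exists_resLift u).choose_spec.1

theorem mk_resLift (u : ResUnits K f) :
    Ideal.Quotient.mk (condIdeal K f) (resLift u) = u := (exists_resLift u).choose_spec.2

theorem span_resLift_mem (u : ResUnits K f) : Ideal.span {resLift u} ∈ primeTo K f :=
  span_mem_primeTo_iff.mpr ⟨resLift_ne_zero u, by rw [mk_resLift]; exact u.isUnit⟩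

/-- The class of a principal ideal depends only on the residue of its generator. -/
theorem cls_span_congr {x y : 𝓞 K} (hx : Ideal.span {x} ∈ primeTo K f)
    (hy : Ideal.span {y} ∈ primeTo K f)
    (h : Ideal.Quotient.mk (condIdeal K f) x = Ideal.Quotient.mk (condIdeal K f) y) :
    cls (⟨_, hx⟩ : primeTo K f) = cls ⟨_, hy⟩ := by
  obtain ⟨hx0, hxu⟩ := span_mem_primeTo_iff.mp hx
  set z := resLift hxu.unit⁻¹
  have hz0 : z ≠ 0 := resLift_ne_zero _
  have hxz : Ideal.Quotient.mk (condIdeal K f) (x * z) = 1 := by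
    rw [map_mul, mk_resLift, IsUnit.mul_val_inv]
  have hrat : ∀ w : 𝓞 K, w ≠ 0 → Ideal.Quotient.mk (condIdeal K f) w = 1 → RatMod f w :=
    fun w hw hw1 => ⟨hw, 1, isCoprime_one_left, by
      rw [Int.cast_one, ← Ideal.Quotient.eq, hw1, map_one]⟩
  refine cls_eq_iff.mpr ⟨y * z, x * z, hrat _ (mul_ne_zero (span_mem_primeTo_iff.mp hy).1 hz0) ?_,
    hrat _ (mul_ne_zero hx0 hz0) hxz, ?_⟩
  · rw [map_mul, ← h, ← map_mul, hxz]
  · rw [Ideal.span_singleton_mul_span_singleton, Ideal.span_singleton_mul_span_singleton]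
    congr 1
    ext w
    simp [mul_comm, mul_left_comm]

/-- A residue prime to `f` gives the class of a principal ideal. -/
def resHom : ResUnits K f →* RingClassGroup K f where
  toFun u := cls ⟨_, span_resLift_mem u⟩
  map_one' := by
    have h : Ideal.span {(1 : 𝓞 K)} ∈ primeTo K f := RatMod.one.span_mem
    rw [cls_span_congr (span_resLift_mem _) h (by rw [mk_resLift, Units.val_one, map_one])]
    exact cls_span_of_ratMod RatMod.one
  map_mul' u v := by
    have h : Ideal.span {resLift u * resLift v} ∈ primeTo K f := by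
      rw [← Ideal.span_singleton_mul_span_singleton]
      exact mul_mem (span_resLift_mem u) (span_resLift_mem v)
    rw [cls_span_congr (span_resLift_mem _) h (by rw [mk_resLift, map_mul, mk_resLift, mk_resLift,
      Units.val_mul]), ← map_mul]
    exact congrArg cls (Subtype.ext (Ideal.span_singleton_mul_span_singleton _ _).symm)

theorem resHom_of_mk {x : 𝓞 K} (hx : Ideal.span {x} ∈ primeTo K f) {u : ResUnits K f}
    (h : Ideal.Quotient.mk (condIdeal K f) x = u) : resHom u = cls ⟨_, hx⟩ :=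
  cls_span_congr _ hx (by rw [mk_resLift, h])

omit [NeZero f] in
theorem mk0_eq_one_iff_span (I : (Ideal (𝓞 K))⁰) :
    ClassGroup.mk0 I = 1 ↔ ∃ x : 𝓞 K, (I : Ideal (𝓞 K)) = Ideal.span {x} := by
  obtain ⟨I, hI⟩ := I
  rw [ClassGroup.mk0_eq_one_iff hI]
  exact ⟨fun h => h.principal, fun ⟨x, hx⟩ => ⟨⟨x, hx⟩⟩⟩

/-- Every ideal class contains an ideal prime to `f`. -/
theorem exists_primeTo_mk0_eq (c : ClassGroup (𝓞 K)) :
    ∃ I : primeTo K f, ClassGroup.mk0 (primeToNonzero K f I) = c := by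
  by_cases hm : condIdeal K f = ⊤
  · obtain ⟨I, hI⟩ := ClassGroup.mk0_surjective c
    exact ⟨⟨I, nonZeroDivisors.coe_ne_zero I, by rw [hm, ← Ideal.one_eq_top]; exact isCoprime_one_right⟩,
      hI⟩
  obtain ⟨J, hJ⟩ := ClassGroup.mk0_surjective c⁻¹
  have hJ0 : (J : Ideal (𝓞 K)) ≠ 0 := nonZeroDivisors.coe_ne_zero J
  obtain ⟨y, hy⟩ := IsDedekindDomain.exists_sup_span_eq
    (I := (J : Ideal (𝓞 K)) * condIdeal K f) Ideal.mul_le_left
    (mul_ne_zero hJ0 condIdeal_ne_bot)
  have hy0 : y ≠ 0 := by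
    rintro rfl
    rw [Ideal.span_singleton_zero, sup_bot_eq] at hy
    exact hm (by
      rw [← Ideal.one_eq_top]
      exact mul_left_cancel₀ hJ0 (by rw [hy, mul_one]))
  obtain ⟨I, hI⟩ : (J : Ideal (𝓞 K)) ∣ Ideal.span {y} :=
    Ideal.dvd_iff_le.mpr (by rw [← hy]; exact le_sup_right)
  have hI0 : I ≠ 0 := by
    rintro rfl
    rw [mul_zero, Ideal.zero_eq_bot, Ideal.span_singleton_eq_bot] at hI
    exact hy0 hI
  have hcop : IsCoprime I (condIdeal K f) := by
    rw [Ideal.isCoprime_iff_sup_eq, sup_comm]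
    rw [hI, ← Ideal.mul_sup] at hy
    rw [← Ideal.one_eq_top]
    exact mul_left_cancel₀ hJ0 (by rw [hy, mul_one])
  refine ⟨⟨I, hI0, hcop⟩, ?_⟩
  have h1 : ClassGroup.mk0 J * ClassGroup.mk0 (primeToNonzero K f ⟨I, hI0, hcop⟩) = 1 := by
    rw [← map_mul]
    exact (mk0_eq_one_iff_span _).mpr ⟨y, hI.symm⟩
  rw [hJ, inv_mul_eq_one] at h1
  exact h1.symm

theorem toClassGroup_surjective :
    Function.Surjective (toClassGroup : RingClassGroup K f →* ClassGroup (𝓞 K)) := fun c => by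
  obtain ⟨I, hI⟩ := exists_primeTo_mk0_eq (f := f) c
  exact ⟨cls I, by rw [toClassGroup_cls, hI]⟩

theorem range_resHom :
    (resHom : ResUnits K f →* RingClassGroup K f).range = toClassGroup.ker := by
  ext g
  rw [MonoidHom.mem_ker]
  constructor
  · rintro ⟨u, rfl⟩
    show toClassGroup (cls _) = 1
    rw [toClassGroup_cls]
    exact (mk0_eq_one_iff_span _).mpr ⟨resLift u, rfl⟩
  · intro hg
    obtain ⟨I, rfl⟩ := cls_surjective g
    rw [toClassGroup_cls] at hg
    obtain ⟨x, hx⟩ := (mk0_eq_one_iff_span _).mp hg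
    change (I : Ideal (𝓞 K)) = Ideal.span {x} at hx
    have hxP : Ideal.span {x} ∈ primeTo K f := hx ▸ I.2
    refine ⟨(span_mem_primeTo_iff.mp hxP).2.unit, ?_⟩
    rw [resHom_of_mk hxP (IsUnit.unit_spec _).symm]
    exact congrArg cls (Subtype.ext hx.symm)

variable (K f) in
/-- Residues of rational integers. -/
def ratUnits : Subgroup (ResUnits K f) where
  carrier := {u | ∃ a : ℤ, IsCoprime a (f : ℤ) ∧ Ideal.Quotient.mk (condIdeal K f) (a : 𝓞 K) = u}
  one_mem' := ⟨1, isCoprime_one_left, by simp⟩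
  mul_mem' := fun ⟨a, ha, h⟩ ⟨b, hb, h'⟩ =>
    ⟨a * b, ha.mul_left hb, by push_cast; rw [map_mul, h, h']⟩
  inv_mem' := fun {u} ⟨a, ⟨s, t, hst⟩, h⟩ => by
    refine ⟨s, ⟨a, t, by linear_combination hst⟩, Units.eq_inv_of_mul_eq_one_left ?_⟩
    rw [← h, ← map_mul, ← map_one (Ideal.Quotient.mk _), Ideal.Quotient.eq,
      show (a : 𝓞 K) * (s : 𝓞 K) - 1 = -((t : 𝓞 K) * (f : 𝓞 K)) by
        have h : ((s * a + t * (f : ℤ) : ℤ) : 𝓞 K) = ((1 : ℤ) : 𝓞 K) := congrArg _ hst
        push_cast at h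
        linear_combination h]
    exact neg_mem (Ideal.mul_mem_left _ _ (Ideal.mem_span_singleton_self _))

theorem ratUnits_le_ker : ratUnits K f ≤ resHom.ker := by
  rintro u ⟨a, ha, h⟩
  rw [MonoidHom.mem_ker]
  rcases eq_or_ne (a : 𝓞 K) 0 with h0 | h0
  · -- then `f = 1` and every residue is trivial
    have h1 : (0 : 𝓞 K ⧸ condIdeal K f) = u := by rw [← h, h0, map_zero]
    have h01 : (0 : 𝓞 K ⧸ condIdeal K f) = 1 := by
      calc (0 : 𝓞 K ⧸ condIdeal K f) = (u : 𝓞 K ⧸ condIdeal K f) * ↑u⁻¹ := by rw [← h1, zero_mul]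
        _ = 1 := Units.mul_inv u
    have : Subsingleton (𝓞 K ⧸ condIdeal K f) := subsingleton_of_zero_eq_one h01
    rw [Subsingleton.elim u 1, map_one]
  · have hr : RatMod f (a : 𝓞 K) := ⟨h0, a, ha, by simp⟩
    rw [resHom_of_mk hr.span_mem h]
    exact cls_span_of_ratMod hr

theorem ker_resHom (hunits : ∀ u : (𝓞 K)ˣ, u = 1 ∨ u = -1) : resHom.ker = ratUnits K f := by
  refine le_antisymm (fun u hu => ?_) ratUnits_le_ker
  rw [MonoidHom.mem_ker] at hu
  change cls _ = 1 at hu
  rw [← map_one (cls (K := K) (f := f)), cls_eq_iff] at hu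
  obtain ⟨p, q, ⟨hp0, a, ⟨s, t, hst⟩, hpa⟩, ⟨-, b, hb, hqb⟩, h⟩ := hu
  simp only [Submonoid.coe_one, mul_one, Ideal.span_singleton_mul_span_singleton] at h
  obtain ⟨w, hw⟩ := Ideal.span_singleton_eq_span_singleton.mp h
  obtain ⟨e, he, hew⟩ : ∃ e : ℤ, (e = 1 ∨ e = -1) ∧ (w : 𝓞 K) = e := by
    rcases hunits w with rfl | rfl
    · exact ⟨1, Or.inl rfl, by simp⟩
    · exact ⟨-1, Or.inr rfl, by simp⟩
  refine ⟨e * b * s, ?_, ?_⟩
  · refine (IsCoprime.mul_left ?_ hb).mul_left ⟨a, t, by linear_combination hst⟩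
    rcases he with rfl | rfl
    · exact isCoprime_one_left
    · exact ⟨-1, 0, by ring⟩
  have hp' := Ideal.Quotient.eq.mpr hpa
  have hq' := Ideal.Quotient.eq.mpr hqb
  have hs : (Ideal.Quotient.mk (condIdeal K f)) (a : 𝓞 K) * Ideal.Quotient.mk _ (s : 𝓞 K) = 1 := by
    rw [← map_mul, ← map_one (Ideal.Quotient.mk _), Ideal.Quotient.eq,
      show (a : 𝓞 K) * (s : 𝓞 K) - 1 = -((t : 𝓞 K) * (f : 𝓞 K)) by
        have h : ((s * a + t * (f : ℤ) : ℤ) : 𝓞 K) = ((1 : ℤ) : 𝓞 K) := congrArg _ hst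
        push_cast at h
        linear_combination h]
    exact neg_mem (Ideal.mul_mem_left _ _ (Ideal.mem_span_singleton_self _))
  have he2 : (Ideal.Quotient.mk (condIdeal K f)) (e : 𝓞 K) * Ideal.Quotient.mk _ (e : 𝓞 K) = 1 := by
    rw [← map_mul]
    rcases he with rfl | rfl <;> simp
  have hkey := congrArg (Ideal.Quotient.mk (condIdeal K f)) hw
  rw [map_mul, map_mul, hp', hq', mk_resLift, hew] at hkey
  push_cast
  rw [map_mul, map_mul, ← hkey]
  calc _ = (Ideal.Quotient.mk (condIdeal K f)) (e : 𝓞 K) * Ideal.Quotient.mk _ (e : 𝓞 K) *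
        ((Ideal.Quotient.mk (condIdeal K f)) (a : 𝓞 K) * Ideal.Quotient.mk _ (s : 𝓞 K)) *
          (u : 𝓞 K ⧸ condIdeal K f) := by ring
    _ = _ := by rw [he2, hs, one_mul, one_mul]

instance : Finite (RingClassGroup K f) :=
  have : Finite (toClassGroup : RingClassGroup K f →* ClassGroup (𝓞 K)).ker := by
    rw [← range_resHom]
    exact (Set.finite_range _).to_subtype
  have : Finite (RingClassGroup K f ⧸ (toClassGroup : RingClassGroup K f →* ClassGroup (𝓞 K)).ker) :=
    Finite.of_equiv _ (QuotientGroup.quotientKerEquivOfSurjective _ toClassGroup_surjective).symm.toEquiv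
  Finite.of_subgroup_quotient (toClassGroup : RingClassGroup K f →* ClassGroup (𝓞 K)).ker

/-- The order of the ring class group. -/
theorem natCard_mul (hunits : ∀ u : (𝓞 K)ˣ, u = 1 ∨ u = -1) :
    Nat.card (RingClassGroup K f) * Nat.card (ratUnits K f) =
      Nat.card (ClassGroup (𝓞 K)) * Nat.card (ResUnits K f) := by
  have h1 := Subgroup.card_eq_card_quotient_mul_card_subgroup
    (toClassGroup : RingClassGroup K f →* ClassGroup (𝓞 K)).ker
  rw [Nat.card_congr (QuotientGroup.quotientKerEquivOfSurjective _ toClassGroup_surjective).toEquiv,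
    ← range_resHom] at h1
  have h2 := Subgroup.card_eq_card_quotient_mul_card_subgroup
    (resHom : ResUnits K f →* RingClassGroup K f).ker
  rw [Nat.card_congr (QuotientGroup.quotientKerEquivRange _).toEquiv, ker_resHom hunits] at h2
  rw [h1, h2, mul_assoc]

end Fermat.Agent.TwoAdic.RingClass
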