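import Fermat.Agent.TwoAdic.RingClass.Local
import Mathlib.GroupTheory.PGroup
import Mathlib.NumberTheory.Padics.PadicVal.Basic
import Mathlib.GroupTheory.Perm.Cycle.Type

/-!
# The 2-quotient `G''` of the ring class group with local images of order 2

`G2 K f` is the quotient of the ring class group by the saturation, at odd exponents, of the classes
of square residues. For an auxiliary set `Q` with product `f` its order is
`2 ^ (v₂(h) + #Q)`, and `(𝓞 K / f)ˣ` modulo squares injects into it.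
-/

set_option autoImplicit false

noncomputable section

open NumberField

namespace Fermat.Agent.TwoAdic.RingClass

section OddSat

variable {G : Type*} [CommGroup G]

/-- The elements with an odd power in `S`. -/
def oddSat (S : Subgroup G) : Subgroup G where
  carrier := {g | ∃ k : ℕ, Odd k ∧ g ^ k ∈ S}
  one_mem' := ⟨1, odd_one, by simp [S.one_mem]⟩
  mul_mem' := fun {x y} ⟨k, hk, hx⟩ ⟨l, hl, hy⟩ => ⟨k * l, hk.mul hl, by
    rw [mul_pow, pow_mul x, mul_comm k l, pow_mul y]
    exact mul_mem (pow_mem hx _) (pow_mem hy _)⟩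
  inv_mem' := fun {x} ⟨k, hk, hx⟩ => ⟨k, hk, by rw [inv_pow]; exact inv_mem hx⟩

theorem mem_oddSat {S : Subgroup G} {g : G} : g ∈ oddSat S ↔ ∃ k : ℕ, Odd k ∧ g ^ k ∈ S := Iff.rfl

theorem le_oddSat (S : Subgroup G) : S ≤ oddSat S := fun g hg =>
  ⟨1, odd_one, by rwa [pow_one]⟩

variable [Finite G]

theorem exists_index_eq_two_pow_mul (S : Subgroup G) :
    ∃ m : ℕ, ¬ 2 ∣ m ∧ S.index = 2 ^ padicValNat 2 S.index * m := by
  have hN : S.index ≠ 0 := Subgroup.index_ne_zero_of_finite
  obtain ⟨m, hm⟩ : 2 ^ padicValNat 2 S.index ∣ S.index := pow_padicValNat_dvd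
  refine ⟨m, fun h => ?_, hm⟩
  obtain ⟨c, rfl⟩ := h
  exact pow_succ_padicValNat_not_dvd (p := 2) hN ⟨c, by rw [pow_succ, mul_assoc, ← hm]⟩

theorem pow_mem_oddSat (S : Subgroup G) (g : G) : g ^ 2 ^ padicValNat 2 S.index ∈ oddSat S := by
  obtain ⟨m, hm, hN⟩ := exists_index_eq_two_pow_mul S
  refine ⟨m, Nat.odd_iff.mpr (Nat.two_dvd_ne_zero.mp hm), ?_⟩
  rw [← pow_mul, ← hN]
  exact S.pow_index_mem g

theorem isPGroup_quotient_oddSat (S : Subgroup G) : IsPGroup 2 (G ⧸ oddSat S) := fun x => by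
  obtain ⟨g, rfl⟩ := QuotientGroup.mk_surjective x
  exact ⟨padicValNat 2 S.index, by
    rw [← QuotientGroup.mk_pow, QuotientGroup.eq_one_iff]
    exact pow_mem_oddSat S g⟩

theorem not_two_dvd_relIndex_oddSat (S : Subgroup G) : ¬ 2 ∣ S.relIndex (oddSat S) := by
  intro h
  have : Fact (Nat.Prime 2) := ⟨Nat.prime_two⟩
  obtain ⟨x, hx⟩ := exists_prime_orderOf_dvd_card' (G := ↥(oddSat S) ⧸ S.subgroupOf (oddSat S)) 2 h
  obtain ⟨⟨g, k, hk, hg⟩, rfl⟩ := QuotientGroup.mk_surjective x
  have h1 : orderOf (QuotientGroup.mk (⟨g, k, hk, hg⟩ : oddSat S) :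
      ↥(oddSat S) ⧸ S.subgroupOf (oddSat S)) ∣ k := orderOf_dvd_of_pow_eq_one (by
    rw [← QuotientGroup.mk_pow, QuotientGroup.eq_one_iff, Subgroup.mem_subgroupOf]
    exact hg)
  rw [hx] at h1
  exact (Nat.not_even_iff_odd.mpr hk) (even_iff_two_dvd.mpr h1)

/-- The index of the saturation is the 2-part of the index. -/
theorem index_oddSat (S : Subgroup G) : (oddSat S).index = 2 ^ padicValNat 2 S.index := by
  have : Fact (Nat.Prime 2) := ⟨Nat.prime_two⟩
  obtain ⟨b, hb⟩ := IsPGroup.iff_card.mp (isPGroup_quotient_oddSat S)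
  rw [← Subgroup.index] at hb
  have hr : S.relIndex (oddSat S) ≠ 0 := fun h => not_two_dvd_relIndex_oddSat S (h ▸ dvd_zero 2)
  rw [← Subgroup.relIndex_mul_index (le_oddSat S), hb, padicValNat.mul hr (by positivity),
    padicValNat.eq_zero_of_not_dvd (not_two_dvd_relIndex_oddSat S), padicValNat.prime_pow, zero_add]

end OddSat

variable {K : Type*} [Field K] [NumberField K] {f : ℕ} [NeZero f]

variable (K f) in
/-- The classes of square residues. -/
def sqClasses : Subgroup (RingClassGroup K f) :=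
  (powMonoidHom 2 : ResUnits K f →* ResUnits K f).range.map resHom

variable (K f) in
/-- `G''`. -/
abbrev G2 : Type _ := RingClassGroup K f ⧸ oddSat (sqClasses K f)

variable (K f) in
/-- The projection to `G''`. -/
def toG2 : RingClassGroup K f →* G2 K f := QuotientGroup.mk' _

theorem toG2_surjective : Function.Surjective (toG2 K f) := QuotientGroup.mk'_surjective _

theorem toG2_eq_one_iff (g : RingClassGroup K f) :
    toG2 K f g = 1 ↔ ∃ k : ℕ, Odd k ∧ g ^ k ∈ sqClasses K f := QuotientGroup.eq_one_iff g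

variable (K f) in
/-- The class in `G''` of an ideal prime to `f`. -/
def cls2 : primeTo K f →* G2 K f := (toG2 K f).comp cls

open Classical in
variable (K f) in
/-- `cls2` as a function on all ideals, with the junk value `1` off the ideals prime to `f`. -/
def cls2Fun (I : Ideal (𝓞 K)) : G2 K f := if h : I ∈ primeTo K f then cls2 K f ⟨I, h⟩ else 1

theorem cls2Fun_of_mem {I : Ideal (𝓞 K)} (h : I ∈ primeTo K f) :
    cls2Fun K f I = cls2 K f ⟨I, h⟩ := dif_pos h

omit [NumberField K] [NeZero f] in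
theorem mem_primeTo_of_isCoprime (hf : condIdeal K f ≠ ⊤) {I : Ideal (𝓞 K)}
    (h : IsCoprime I (condIdeal K f)) : I ∈ primeTo K f :=
  ⟨fun h0 => hf (by rw [Ideal.isCoprime_iff_sup_eq, h0, bot_sup_eq] at h; exact h), h⟩

theorem cls2Fun_mul {I J : Ideal (𝓞 K)} (hI : I ∈ primeTo K f) (hJ : J ∈ primeTo K f) :
    cls2Fun K f (I * J) = cls2Fun K f I * cls2Fun K f J := by
  rw [cls2Fun_of_mem hI, cls2Fun_of_mem hJ, cls2Fun_of_mem (mul_mem hI hJ), ← map_mul]
  rfl

theorem cls2Fun_congr {x y : 𝓞 K} (hx : x ≠ 0) (hy : y ≠ 0) (hxy : x - y ∈ condIdeal K f)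
    (hc : IsCoprime (Ideal.span {x}) (condIdeal K f)) :
    cls2Fun K f (Ideal.span {x}) = cls2Fun K f (Ideal.span {y}) := by
  have hxm : Ideal.span {x} ∈ primeTo K f := ⟨by simpa using hx, hc⟩
  have heq := Ideal.Quotient.eq.mpr hxy
  have hym : Ideal.span {y} ∈ primeTo K f :=
    span_mem_primeTo_iff.mpr ⟨hy, heq ▸ (span_mem_primeTo_iff.mp hxm).2⟩
  rw [cls2Fun_of_mem hxm, cls2Fun_of_mem hym]
  exact congrArg (toG2 K f) (cls_span_congr hxm hym heq)

theorem exists_cls2Fun_eq (g : G2 K f) :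
    ∃ I : Ideal (𝓞 K), IsCoprime I (condIdeal K f) ∧ cls2Fun K f I = g := by
  obtain ⟨c, rfl⟩ := toG2_surjective g
  obtain ⟨I, rfl⟩ := cls_surjective c
  exact ⟨I, I.2.2, (cls2Fun_of_mem I.2).trans rfl⟩

variable (K f) in
theorem isPGroup_G2 : IsPGroup 2 (G2 K f) := isPGroup_quotient_oddSat _

namespace IsAuxSet

variable {Q : Finset ℕ} (h : IsAuxSet K f Q) (hunits : ∀ u : (𝓞 K)ˣ, u = 1 ∨ u = -1)
include h hunits

theorem index_sqClasses :
    (sqClasses K f).index = 2 ^ Q.card * Nat.card (ClassGroup (𝓞 K)) := by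
  rw [sqClasses, Subgroup.index_map, ker_resHom hunits, sup_eq_left.mpr h.ratUnits_le_squares,
    h.index_squares, range_resHom, Subgroup.index_ker, MonoidHom.range_eq_top.mpr
      toClassGroup_surjective, Subgroup.card_top]

/-- The order of `G''`. -/
theorem natCard_G2 :
    Nat.card (G2 K f) = 2 ^ (padicValNat 2 (Nat.card (ClassGroup (𝓞 K))) + Q.card) := by
  have : Fact (Nat.Prime 2) := ⟨Nat.prime_two⟩
  rw [← Subgroup.index, index_oddSat, h.index_sqClasses hunits,
    padicValNat.mul (by positivity) Nat.card_pos.ne', padicValNat.prime_pow, add_comm]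

/-- A residue is trivial in `G''` exactly when it is a square. -/
theorem toG2_resHom_eq_one_iff (u : ResUnits K f) :
    toG2 K f (resHom u) = 1 ↔ u ∈ (powMonoidHom 2 : ResUnits K f →* ResUnits K f).range := by
  rw [toG2_eq_one_iff]
  constructor
  · rintro ⟨k, ⟨j, rfl⟩, v, hv, hvu⟩
    rw [← map_pow] at hvu
    obtain ⟨w, hw, hwv⟩ : ∃ w ∈ ratUnits K f, v * w = u ^ (2 * j + 1) :=
      ⟨v⁻¹ * u ^ (2 * j + 1), by
        rw [← ker_resHom hunits, MonoidHom.mem_ker, map_mul, map_inv, hvu, inv_mul_cancel],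
        mul_inv_cancel_left _ _⟩
    have h1 := mul_mem hv (h.ratUnits_le_squares hw)
    rw [hwv, pow_succ] at h1
    exact (Subgroup.mul_mem_cancel_left _
      (⟨u ^ j, by rw [powMonoidHom_apply, ← pow_mul, mul_comm]⟩ :
        u ^ (2 * j) ∈ (powMonoidHom 2 : ResUnits K f →* ResUnits K f).range)).mp h1
  · exact fun hu => ⟨1, odd_one, by rw [pow_one]; exact Subgroup.mem_map_of_mem _ hu⟩

/-- The residues form a subgroup of order `2 ^ #Q` of `G''`. -/
theorem natCard_range_resHom :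
    Nat.card ((toG2 K f).comp resHom).range = 2 ^ Q.card := by
  rw [← Subgroup.index_ker, ← h.index_squares]
  congr 1
  ext u
  exact h.toG2_resHom_eq_one_iff hunits u

end IsAuxSet

/-- The classes in `G''` coming from residues are those of odd order in the class group. -/
theorem toG2_mem_range_iff (g : RingClassGroup K f) :
    toG2 K f g ∈ ((toG2 K f).comp resHom).range ↔ ∃ k : ℕ, Odd k ∧ toClassGroup g ^ k = 1 := by
  have hker : ∀ u : ResUnits K f, toClassGroup (resHom u) = 1 := fun u => by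
    rw [← MonoidHom.mem_ker, ← range_resHom]; exact ⟨u, rfl⟩
  constructor
  · rintro ⟨u, hu⟩
    have h1 : toG2 K f (g * (resHom u)⁻¹) = 1 := by
      rw [map_mul, map_inv, ← hu, MonoidHom.comp_apply, mul_inv_cancel]
    obtain ⟨k, hk, v, -, hv⟩ := (toG2_eq_one_iff _).mp h1
    refine ⟨k, hk, ?_⟩
    have h2 := congrArg toClassGroup hv
    rw [hker, map_pow, map_mul, map_inv, hker, inv_one, mul_one] at h2
    exact h2.symm
  · rintro ⟨k, hk, hk1⟩
    rw [← map_pow, ← MonoidHom.mem_ker, ← range_resHom] at hk1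
    obtain ⟨u, hu⟩ := hk1
    obtain ⟨n, hn⟩ := isPGroup_G2 K f (toG2 K f g)
    have hcop : (2 ^ n).Coprime k := Nat.Coprime.pow_left _ (Nat.coprime_two_left.mpr hk)
    have h1 : toG2 K f g ^ k ∈ ((toG2 K f).comp resHom).range :=
      ⟨u, by rw [MonoidHom.comp_apply, hu, map_pow]⟩
    obtain ⟨m, hm⟩ := exists_pow_eq_self_of_coprime
      (hcop.symm.coprime_dvd_right (orderOf_dvd_of_pow_eq_one hn))
    exact hm ▸ pow_mem h1 m

end Fermat.Agent.TwoAdic.RingClass
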